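/-
Programme I (S33, p-new half), contract D-B3 §4b (helper25): the points of the tube of a smooth
level of main (`BR/S0/SmoothDescent`).

* `exists_place_of_const` : for a constant `c` of the level with `|c| < 1` there is a place `P` of
  the tube with `t(P) = c` (Krull's principal ideal theorem + the field `horiz` of the level);
* `exists_place_of_lt` : the same for every `c` of `K` with `|c| < 1`, for a family;
* `eq_zero_of_forall_evalAt_eq_zero` : a function of the level vanishing at all places of the tube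
  is zero (it is divisible by `∏_{n < N} (t - ϖ ^ (n + 1))` for every `N`; Krull's intersection
  theorem) — the hypothesis `hsepR` of `discExpand_injective`;
* `exists_collar` : the collar hypothesis `hcollar` of `expData` from a dense value group.
-/
import Mathlib
import Fermat.Agent.BR.S0.SmoothDescent

set_option autoImplicit false

namespace Fermat.Agent.FF3.ExpandDisc

open AlgebraicCurve IsLocalRing Fermat.Agent.Red Fermat.Agent.X0 Fermat.Agent.BR
  Fermat.Agent.BR.Centre Fermat.Agent.BR.S0

variable {K F k : Type*} [Field K] [Field F] [Algebra K F] [Field k]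
  {Ft : Type*} [Field Ft] [Algebra k Ft]
  {A : ValuationSubring K} {O : ValuationSubring F} {res : O →+* Ft}
  {Q : Place k Ft} {T : Set (Place K F)} {t : F} {R : Subring F} {ϖ : K}

/-- a function of the level lies in the maximal ideal of the component iff it is divisible by the
uniformizer (`vert` and its converse) -/
theorem mem_nonunits_iff_unif_dvd (L : SmoothLevel A O res Q T t R ϖ)
    (hAO : ∀ c : K, A.valuation c < 1 → algebraMap K F c ∈ O.nonunits) (x : R) :
    (x : F) ∈ O.nonunits ↔ (⟨algebraMap K F ϖ, L.unif_mem⟩ : R) ∣ x := by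
  refine ⟨L.vert x, ?_⟩
  rintro ⟨z, rfl⟩
  have h1 : O.valuation (algebraMap K F ϖ) < 1 :=
    (ValuationSubring.mem_nonunits_iff O).mp (hAO ϖ L.unif_lt)
  have h2 : O.valuation (z : F) ≤ 1 := (O.valuation_le_one_iff _).mpr (L.le _ z.2)
  rw [ValuationSubring.mem_nonunits_iff]
  show O.valuation (algebraMap K F ϖ * (z : F)) < 1
  rw [map_mul]
  exact mul_lt_one_of_nonneg_of_lt_one_left zero_le h1 h2

/-- the vertical prime `(ϖ)` of a level -/
theorem isPrime_span_unif (L : SmoothLevel A O res Q T t R ϖ)
    (hAO : ∀ c : K, A.valuation c < 1 → algebraMap K F c ∈ O.nonunits) :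
    (Ideal.span {(⟨algebraMap K F ϖ, L.unif_mem⟩ : R)}).IsPrime := by
  have e : Ideal.span {(⟨algebraMap K F ϖ, L.unif_mem⟩ : R)} =
      (IsLocalRing.maximalIdeal O).comap (Subring.inclusion L.le) := by
    ext x
    rw [Ideal.mem_span_singleton, Ideal.mem_comap, ← mem_nonunits_iff_unif_dvd L hAO x]
    exact (ValuationSubring.coe_mem_nonunits_iff (A := O) (a := Subring.inclusion L.le x))
  rw [e]
  exact Ideal.comap_isPrime _ _

/-- **Points of the tube**: for a constant `c` of the level with `|c| < 1` there is a place of the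
tube with coordinate `c`. -/
theorem exists_place_of_const (L : SmoothLevel A O res Q T t R ϖ)
    (hAO : ∀ c : K, A.valuation c < 1 → algebraMap K F c ∈ O.nonunits)
    (ht : t ∉ O.nonunits) {c : K} (hc : A.valuation c < 1) (hcR : algebraMap K F c ∈ R) :
    ∃ P ∈ T, IsValueAt P t c := by
  have := L.noeth
  have := L.isLocal
  set w : R := ⟨algebraMap K F ϖ, L.unif_mem⟩ with hw
  set tR : R := ⟨t, L.t_mem⟩ with htR
  set cR : R := ⟨algebraMap K F c, hcR⟩ with hcRdef
  have hwnu : ¬ IsUnit w := L.unif_nonunit (hAO ϖ L.unif_lt)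
  have hwc : w ∣ cR := L.vert cR (hAO c hc)
  have htw : ¬ w ∣ tR := fun h => ht ((mem_nonunits_iff_unif_dvd L hAO tR).mpr h)
  have hcnu : ¬ IsUnit cR := fun h => hwnu (isUnit_of_dvd_unit hwc h)
  -- `x = t - c` is a nonzero non-unit
  have hxnu : ¬ IsUnit (tR - cR) := by
    have h1 : tR ∈ maximalIdeal R := (mem_maximalIdeal _).mpr L.t_nonunit
    have h2 : cR ∈ maximalIdeal R := (mem_maximalIdeal _).mpr hcnu
    exact (mem_maximalIdeal _).mp (sub_mem h1 h2)
  have hx0 : tR - cR ≠ 0 := by
    intro h0
    apply htw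
    rw [sub_eq_zero.mp h0]
    exact hwc
  -- a minimal prime over `(x)`
  have hle : Ideal.span {tR - cR} ≤ maximalIdeal R := by
    rw [Ideal.span_singleton_le_iff_mem]
    exact (mem_maximalIdeal _).mpr hxnu
  obtain ⟨p, hpmin, hpm⟩ := Ideal.exists_minimalPrimes_le hle
  have hpprime : p.IsPrime := hpmin.1.1
  have hxp : tR - cR ∈ p := hpmin.1.2 (Ideal.subset_span rfl)
  have hht1 : p.height ≤ 1 :=
    Ideal.height_le_one_of_isPrincipal_of_mem_minimalPrimes (Ideal.span {tR - cR}) p hpmin
  have hpbot : p ≠ ⊥ := by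
    intro h0
    rw [h0, Ideal.mem_bot] at hxp
    exact hx0 hxp
  have hht0 : p.height ≠ 0 := by
    intro h0
    rw [Ideal.height_eq_zero_iff_eq_bot] at h0
    exact hpbot h0
  have hht : p.height = 1 := by
    apply le_antisymm hht1
    exact Order.one_le_iff_pos.mpr (pos_iff_ne_zero.mpr hht0)
  -- the uniformizer does not lie in it
  have hwp : w ∉ p := by
    intro hwp
    have hcp : cR ∈ p := by
      obtain ⟨z, hz⟩ := hwc
      rw [hz]
      exact p.mul_mem_right z hwp
    have htp : tR ∈ p := by
      have : tR = (tR - cR) + cR := by ring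
      rw [this]
      exact add_mem hxp hcp
    -- then `p` is the maximal ideal, of height at least two
    have hq : (Ideal.span {w}).IsPrime := isPrime_span_unif L hAO
    have hqp : Ideal.span {w} < p := by
      refine lt_of_le_of_ne ((Ideal.span_singleton_le_iff_mem _).mpr hwp) ?_
      intro heq
      apply htw
      rw [← Ideal.mem_span_singleton, heq]
      exact htp
    have h1 := (Ideal.height_le_iff (p := p) (n := 1)).mp hht1 (Ideal.span {w}) hq hqp
    have h0 : (Ideal.span {w}).height = 0 := by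
      have : (Ideal.span {w}).height < 1 := by exact_mod_cast h1
      exact Order.lt_one_iff.mp this
    rw [Ideal.height_eq_zero_iff_eq_bot, Ideal.span_singleton_eq_bot] at h0
    have : algebraMap K F ϖ = 0 := congrArg (fun x : R => (x : F)) h0
    exact L.unif_ne ((map_eq_zero _).mp this)
  obtain ⟨P, hP, hpP⟩ := L.horiz p hpprime hht hwp
  refine ⟨P, hP, ?_⟩
  have h0 : evalAt P ((tR - cR : R) : F) = 0 := (hpP _).mp hxp
  have hI := L.integralAt hP
  have h1 : evHom A R P hI (tR - cR) = 0 := Subtype.ext (by rw [coe_evHom, h0]; rfl)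
  rw [map_sub, sub_eq_zero] at h1
  have h2 : evalAt P t = c := by
    have h3 := congrArg (fun a : A => (a : K)) h1
    simp only [coe_evHom] at h3
    rw [show ((tR : R) : F) = t from rfl, show ((cR : R) : F) = algebraMap K F c from rfl,
      evalAt_algebraMap] at h3
    exact h3
  rw [← h2]
  exact L.isValueAt_evalAt hP

/-- **Points of the tube of a family**: every `c` with `|c| < 1` is the coordinate of a place of
the tube. -/
theorem exists_place_of_lt {ι : Type*} {R : ι → Subring F}
    {ϖ : ι → K} (H : SmoothFamily A O res Q T t R ϖ)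
    (hAO : ∀ c : K, A.valuation c < 1 → algebraMap K F c ∈ O.nonunits)
    (ht : t ∉ O.nonunits) {c : K} (hc : A.valuation c < 1) :
    ∃ P ∈ T, IsValueAt P t c := by
  have hcA : c ∈ A := (A.valuation_le_one_iff c).mp hc.le
  obtain ⟨i, hi⟩ := H.const c hcA
  exact exists_place_of_const (H.level i) hAO ht hc hi

/-- **Separation**: a function of a level which vanishes at all the places of the tube is zero. -/
theorem eq_zero_of_forall_evalAt_eq_zero (L : SmoothLevel A O res Q T t R ϖ)
    (hAO : ∀ c : K, A.valuation c < 1 → algebraMap K F c ∈ O.nonunits)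
    (ht : t ∉ O.nonunits) (y : R) (h : ∀ P ∈ T, evalAt P (y : F) = 0) : y = 0 := by
  have := L.noeth
  have := L.isLocal
  set w : R := ⟨algebraMap K F ϖ, L.unif_mem⟩ with hw
  set tR : R := ⟨t, L.t_mem⟩ with htR
  have hwnu : ¬ IsUnit w := L.unif_nonunit (hAO ϖ L.unif_lt)
  have hwm : w ∈ maximalIdeal R := (mem_maximalIdeal _).mpr hwnu
  have htm : tR ∈ maximalIdeal R := (mem_maximalIdeal _).mpr L.t_nonunit
  -- the constants `ϖ ^ (n + 1)`
  have hcR : ∀ n : ℕ, algebraMap K F (ϖ ^ (n + 1)) ∈ R := by
    intro n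
    rw [map_pow]
    exact pow_mem L.unif_mem _
  have hclt : ∀ n : ℕ, A.valuation (ϖ ^ (n + 1)) < 1 := by
    intro n
    rw [map_pow]
    exact pow_lt_one₀ zero_le L.unif_lt (Nat.succ_ne_zero n)
  have hcoe : ∀ n : ℕ, (⟨algebraMap K F (ϖ ^ (n + 1)), hcR n⟩ : R) = w ^ (n + 1) := by
    intro n
    apply Subtype.ext
    rw [SubmonoidClass.coe_pow, hw]
    exact map_pow _ _ _
  -- the powers of the uniformizer are pairwise different
  have hinj : ∀ m n : ℕ, m < n → ϖ ^ (n + 1) - ϖ ^ (m + 1) ≠ 0 := by
    intro m n hmn h0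
    have h1 : A.valuation (ϖ ^ (n + 1)) < A.valuation (ϖ ^ (m + 1)) := by
      rw [map_pow, map_pow]
      exact pow_lt_pow_right_of_lt_one₀ ((Valuation.pos_iff _).mpr L.unif_ne) L.unif_lt
        (by omega)
    rw [sub_eq_zero.mp h0] at h1
    exact lt_irrefl _ h1
  -- divisibility by the products
  have hdvd : ∀ N : ℕ, (∏ n ∈ Finset.range N, (tR - w ^ (n + 1))) ∣ y := by
    intro N
    induction N with
    | zero => simp
    | succ N ih =>
      obtain ⟨z, hz⟩ := ih
      obtain ⟨P, hP, hPc⟩ := exists_place_of_const L hAO ht (hclt N) (hcR N)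
      have hI := L.integralAt hP
      have h0 : evHom A R P hI y = 0 := Subtype.ext (by rw [coe_evHom, h P hP]; rfl)
      rw [hz, map_mul, map_prod] at h0
      have hne : ∏ n ∈ Finset.range N, evHom A R P hI (tR - w ^ (n + 1)) ≠ 0 := by
        rw [Finset.prod_ne_zero_iff]
        intro n hn hzero
        have hnN : n < N := Finset.mem_range.mp hn
        have h3 := congrArg (fun a : A => (a : K)) hzero
        simp only [coe_evHom] at h3
        have h4 : ((tR - w ^ (n + 1) : R) : F) = t - algebraMap K F (ϖ ^ (n + 1)) := by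
          rw [← hcoe n]
          rfl
        rw [h4] at h3
        have h5 : IsValueAt P (t - algebraMap K F (ϖ ^ (n + 1))) (ϖ ^ (N + 1) - ϖ ^ (n + 1)) :=
          hPc.sub (isValueAt_algebraMap P _)
        rw [evalAt_eq_of_isValueAt h5] at h3
        exact hinj n N hnN h3
      have hz0 : evHom A R P hI z = 0 := (mul_eq_zero.mp h0).resolve_left hne
      have hz1 : evalAt P (z : F) = 0 := by
        have h3 : ((evHom A R P hI z : A) : K) = ((0 : A) : K) := congrArg _ hz0
        rw [coe_evHom] at h3
        exact h3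
      obtain ⟨z', hz'⟩ := (L.evalAt_eq_zero_iff hAO hP hPc (hcR N) z).mp hz1
      refine ⟨z', ?_⟩
      rw [Finset.prod_range_succ, hz, hz', hcoe N]
      ring
  -- Krull's intersection theorem
  have hmem : ∀ N : ℕ, y ∈ maximalIdeal R ^ N := by
    intro N
    obtain ⟨z, hz⟩ := hdvd N
    rw [hz]
    refine Ideal.mul_mem_right _ _ ?_
    have : ∏ n ∈ Finset.range N, (tR - w ^ (n + 1)) ∈
        ∏ _n ∈ Finset.range N, maximalIdeal R := by
      refine Ideal.prod_mem_prod (fun n _ => ?_)
      exact sub_mem htm (Ideal.pow_mem_of_mem _ hwm _ (Nat.succ_pos n))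
    rwa [Finset.prod_const, Finset.card_range] at this
  have hK : (⨅ i : ℕ, maximalIdeal R ^ i) = ⊥ :=
    Ideal.iInf_pow_eq_bot_of_isLocalRing _ (Ideal.IsPrime.ne_top inferInstance)
  have : y ∈ (⨅ i : ℕ, maximalIdeal R ^ i) := (Ideal.mem_iInf).mpr hmem
  rw [hK] at this
  exact this

/-- **The collar**: if the value group of `A` is dense near `1`, the tube has places with
coordinate of norm arbitrarily close to `1`. -/
theorem exists_collar {ι : Type*} {R : ι → Subring F} {ϖ : ι → K}
    (H : SmoothFamily A O res Q T t R ϖ)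
    (hAO : ∀ c : K, A.valuation c < 1 → algebraMap K F c ∈ O.nonunits)
    (ht : t ∉ O.nonunits) {Ω : Type*} [NormedField Ω] (j : K →+* Ω)
    (hdense : ∀ ρ : ℝ, ρ < 1 → ∃ c : K, A.valuation c < 1 ∧ ρ < ‖j c‖)
    (ρ : ℝ) (hρ : ρ < 1) : ∃ P : T, ρ < ‖j (evalAt P.1 t)‖ := by
  obtain ⟨c, hc, hρc⟩ := hdense ρ hρ
  obtain ⟨P, hP, hPc⟩ := exists_place_of_lt H hAO ht hc
  refine ⟨⟨P, hP⟩, ?_⟩
  rw [evalAt_eq_of_isValueAt hPc]
  exact hρc

end Fermat.Agent.FF3.ExpandDisc
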