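/-
Programme I (S33, p-new half), contract D-B3 §4b (helper25): the Gauss valuation of the component
on a smooth level of main, and the Gauss / order clauses (X2d) of the disc expansion.

`L : SmoothLevel A O res Q T t R ϖ`, `w := ϖ` as an element of `R`.

* `exists_eq_pow_mul` : every nonzero function of the level is `w ^ n * z`, `w ∤ z`;
* `valuation_eq_one_of_not_dvd`, `valuation_eq_pow` : the valuation of the component `O` on the
  level is the `w`-adic one (`R_(w) = O ∩ Frac R` is a discrete valuation ring with uniformizer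
  `ϖ`): `exists_mul_mem_of_mem` is the statement `O ∩ Frac R ⊆ R_(w)`;
* `exists_pow_mul_sub_mem_span` : (X2') every `y` with `w ∤ y` is `t ^ n * s` modulo `w`, `s` a unit;
* `ord_res_eq` : and then `n` is the order at `Q` of the reduction of `y`;
* `unif_dvd_iff_discExpand_mem` : the Gauss clause `w ∣ y ↔ expand y ∈ (ϖ)`;
* `exists_discExpand_sub_mem` : the order clause `expand y ≡ X ^ n * unit` modulo `ϖ`.
-/
import Mathlib
import Fermat.Agent.FF3.Expand.Gauss
import Fermat.Agent.FF3.ExpandDisc.Level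
import Fermat.Agent.FF3.ExpandDisc.Points

set_option autoImplicit false

namespace Fermat.Agent.FF3.ExpandDisc

open AlgebraicCurve IsLocalRing Fermat.Agent.Red Fermat.Agent.X0 Fermat.Agent.BR
  Fermat.Agent.BR.Centre Fermat.Agent.BR.S0 Fermat.Agent.FF3.Expand

variable {K F k : Type*} [Field K] [Field F] [Algebra K F] [Field k]
  {Ft : Type*} [Field Ft] [Algebra k Ft]
  {A : ValuationSubring K} {π : A →+* k} {O : ValuationSubring F} {res : O →+* Ft}
  {Q : Place k Ft} {T : Set (Place K F)} {t : F} {R : Subring F} {ϖ : K}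

/-! ### the `ϖ`-adic valuation of a level -/

/-- every nonzero function of the level is a power of the uniformizer times a function not
divisible by it -/
theorem exists_eq_pow_mul (L : SmoothLevel A O res Q T t R ϖ)
    (hAO : ∀ c : K, A.valuation c < 1 → algebraMap K F c ∈ O.nonunits) {y : R} (hy : y ≠ 0) :
    ∃ (n : ℕ) (z : R), ¬ constHom R (unif L) ∣ z ∧ y = constHom R (unif L) ^ n * z := by
  have := L.noeth
  exact WfDvdMonoid.max_power_factor' hy (L.unif_nonunit (hAO ϖ L.unif_lt))

/-- a function of the level not divisible by the uniformizer is a unit of the component -/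
theorem valuation_eq_one_of_not_dvd (L : SmoothLevel A O res Q T t R ϖ)
    (hAO : ∀ c : K, A.valuation c < 1 → algebraMap K F c ∈ O.nonunits) {z : R}
    (hz : ¬ constHom R (unif L) ∣ z) : O.valuation (z : F) = 1 := by
  have h1 : O.valuation (z : F) ≤ 1 := (O.valuation_le_one_iff _).mpr (L.le _ z.2)
  refine le_antisymm h1 (not_lt.mp fun hlt => hz ?_)
  exact (mem_nonunits_iff_unif_dvd L hAO z).mp ((ValuationSubring.mem_nonunits_iff O).mpr hlt)

/-- the valuation of the component on the level is the `ϖ`-adic one -/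
theorem valuation_eq_pow (L : SmoothLevel A O res Q T t R ϖ)
    (hAO : ∀ c : K, A.valuation c < 1 → algebraMap K F c ∈ O.nonunits) {y z : R} {n : ℕ}
    (hz : ¬ constHom R (unif L) ∣ z) (hy : y = constHom R (unif L) ^ n * z) :
    O.valuation (y : F) = O.valuation (algebraMap K F ϖ) ^ n := by
  rw [hy]
  show O.valuation (((constHom R (unif L) : R) : F) ^ n * (z : F)) = _
  rw [map_mul, map_pow, valuation_eq_one_of_not_dvd L hAO hz, mul_one]
  rfl

/-- **`O ∩ Frac R ⊆ R_(ϖ)`**: a quotient of functions of the level which is integral on the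
component has a denominator not divisible by the uniformizer. -/
theorem exists_mul_mem_of_mem (L : SmoothLevel A O res Q T t R ϖ)
    (hAO : ∀ c : K, A.valuation c < 1 → algebraMap K F c ∈ O.nonunits)
    {y : F} {a b : R} (hb : b ≠ 0) (hyab : y * (b : F) = (a : F)) (hyO : y ∈ O) :
    ∃ a' s : R, ¬ constHom R (unif L) ∣ s ∧ y * (s : F) = (a' : F) := by
  set w : R := constHom R (unif L) with hw
  have hw0 : w ≠ 0 := by
    intro h0
    have : algebraMap K F ϖ = 0 := congrArg (fun x : R => (x : F)) h0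
    exact L.unif_ne ((map_eq_zero _).mp this)
  obtain ⟨n, b₁, hb₁, hbn⟩ := exists_eq_pow_mul L hAO hb
  rcases eq_or_ne a 0 with rfl | ha
  · refine ⟨0, b₁, hb₁, ?_⟩
    have hbF : (b : F) ≠ 0 := fun h => hb (Subtype.ext h)
    have hy0 : y = 0 := by
      have := hyab
      rw [ZeroMemClass.coe_zero] at this
      exact (mul_eq_zero.mp this).resolve_right hbF
    rw [hy0, zero_mul, ZeroMemClass.coe_zero]
  obtain ⟨m, a₁, ha₁, ham⟩ := exists_eq_pow_mul L hAO ha
  -- compare valuations
  have hva := valuation_eq_pow L hAO ha₁ ham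
  have hvb := valuation_eq_pow L hAO hb₁ hbn
  have hvy : O.valuation y ≤ 1 := (O.valuation_le_one_iff _).mpr hyO
  have hvw : O.valuation (algebraMap K F ϖ) < 1 :=
    (ValuationSubring.mem_nonunits_iff O).mp (hAO ϖ L.unif_lt)
  have hvw0 : O.valuation (algebraMap K F ϖ) ≠ 0 :=
    (Valuation.ne_zero_iff _).mpr ((map_ne_zero _).mpr L.unif_ne)
  have hnm : n ≤ m := by
    by_contra hlt
    push Not at hlt
    have h1 : O.valuation y * O.valuation (algebraMap K F ϖ) ^ n =
        O.valuation (algebraMap K F ϖ) ^ m := by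
      rw [← hvb, ← hva, ← map_mul, hyab]
    have h3 : O.valuation (algebraMap K F ϖ) ^ m ≤ O.valuation (algebraMap K F ϖ) ^ n := by
      rw [← h1]
      calc O.valuation y * O.valuation (algebraMap K F ϖ) ^ n
          ≤ 1 * O.valuation (algebraMap K F ϖ) ^ n := mul_le_mul_left hvy _
        _ = _ := one_mul _
    have h4 : O.valuation (algebraMap K F ϖ) ^ n < O.valuation (algebraMap K F ϖ) ^ m :=
      pow_lt_pow_right_of_lt_one₀ (zero_lt_iff.mpr hvw0) hvw hlt
    exact absurd h3 (not_le.mpr h4)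
  refine ⟨w ^ (m - n) * a₁, b₁, hb₁, ?_⟩
  -- `y * w ^ n * b₁ = w ^ m * a₁`
  have hwF : ((w : R) : F) ≠ 0 := fun h => hw0 (Subtype.ext h)
  have h1 : y * (((w : R) : F) ^ n * (b₁ : F)) = ((w : R) : F) ^ m * (a₁ : F) := by
    have e1 : ((b : R) : F) = ((w : R) : F) ^ n * (b₁ : F) := by rw [hbn]; rfl
    have e2 : ((a : R) : F) = ((w : R) : F) ^ m * (a₁ : F) := by rw [ham]; rfl
    rw [← e1, ← e2]
    exact hyab
  have h2 : ((w : R) : F) ^ m = ((w : R) : F) ^ n * ((w : R) : F) ^ (m - n) := by
    rw [← pow_add, Nat.add_sub_cancel' hnm]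
  show y * (b₁ : F) = ((w : R) : F) ^ (m - n) * (a₁ : F)
  have h3 : ((w : R) : F) ^ n * (y * (b₁ : F)) =
      ((w : R) : F) ^ n * (((w : R) : F) ^ (m - n) * (a₁ : F)) := by
    calc ((w : R) : F) ^ n * (y * (b₁ : F)) = y * (((w : R) : F) ^ n * (b₁ : F)) := by ring
      _ = ((w : R) : F) ^ m * (a₁ : F) := h1
      _ = ((w : R) : F) ^ n * (((w : R) : F) ^ (m - n) * (a₁ : F)) := by rw [h2]; ring
  exact mul_left_cancel₀ (pow_ne_zero n hwF) h3

/-! ### the constants of a level form a discretely valued ring -/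

/-- every nonzero constant of a level is a power of the uniformizer times a constant of
valuation one: the valuation of `A` is discrete on the constants of the level -/
theorem exists_const_eq_pow_mul (L : SmoothLevel A O res Q T t R ϖ)
    (hAO : ∀ c : K, A.valuation c < 1 → algebraMap K F c ∈ O.nonunits) {x : K}
    (hx : x ∈ constRing (K := K) R) (hx0 : x ≠ 0) :
    ∃ (n : ℕ) (x' : K), x' ∈ constRing (K := K) R ∧ A.valuation x' = 1 ∧ x = ϖ ^ n * x' := by
  have hxR0 : (⟨algebraMap K F x, hx⟩ : R) ≠ 0 := by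
    intro h0
    have : algebraMap K F x = 0 := congrArg (fun y : R => (y : F)) h0
    exact hx0 ((map_eq_zero _).mp this)
  obtain ⟨n, z, hz, hxz⟩ := exists_eq_pow_mul L hAO hxR0
  have hϖn : ϖ ^ n ≠ 0 := pow_ne_zero n L.unif_ne
  have hzF : (z : F) = algebraMap K F (x / ϖ ^ n) := by
    have h1 : algebraMap K F x = algebraMap K F ϖ ^ n * (z : F) :=
      congrArg (fun y : R => (y : F)) hxz
    have h2 : algebraMap K F (ϖ ^ n) ≠ 0 := (map_ne_zero _).mpr hϖn
    have h3 : algebraMap K F ϖ ^ n ≠ 0 := by rw [← map_pow]; exact h2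
    rw [map_div₀, h1, map_pow, mul_comm, mul_div_assoc, div_self h3, mul_one]
  have hx' : x / ϖ ^ n ∈ constRing (K := K) R := by
    rw [mem_constRing, ← hzF]
    exact z.2
  refine ⟨n, x / ϖ ^ n, hx', ?_, by field_simp⟩
  have h1 : A.valuation (x / ϖ ^ n) ≤ 1 :=
    (A.valuation_le_one_iff _).mpr (mem_of_mem_constRing L hAO hx')
  refine le_antisymm h1 (not_lt.mp fun hlt => ?_)
  have h2 := hAO _ hlt
  rw [← hzF] at h2
  exact hz ((mem_nonunits_iff_unif_dvd L hAO z).mp h2)

/-- a constant of a level of valuation `< 1` has valuation at most that of the uniformizer -/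
theorem valuation_const_le (L : SmoothLevel A O res Q T t R ϖ)
    (hAO : ∀ c : K, A.valuation c < 1 → algebraMap K F c ∈ O.nonunits) {x : K}
    (hx : x ∈ constRing (K := K) R) (hlt : A.valuation x < 1) :
    A.valuation x ≤ A.valuation ϖ := by
  rcases eq_or_ne x 0 with rfl | hx0
  · rw [map_zero]
    exact zero_le
  obtain ⟨n, x', -, hx'1, rfl⟩ := exists_const_eq_pow_mul L hAO hx hx0
  rw [map_mul, map_pow, hx'1, mul_one] at hlt ⊢
  rcases Nat.eq_zero_or_pos n with rfl | hn
  · rw [pow_zero] at hlt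
    exact absurd hlt (lt_irrefl _)
  · calc A.valuation ϖ ^ n ≤ A.valuation ϖ ^ 1 :=
          pow_le_pow_of_le_one zero_le L.unif_lt.le hn
      _ = A.valuation ϖ := pow_one _

/-! ### Taylor order at the point -/

/-- the maximal ideal of a level is `(ϖ) + (t)` -/
theorem maximalIdeal_le (L : SmoothLevel A O res Q T t R ϖ) :
    haveI := L.isLocal
    maximalIdeal R ≤ Ideal.span {constHom R (unif L)} ⊔ Ideal.span {coord L} := by
  have := L.isLocal
  intro x hx
  have h1 := L.nonunit_mem x ((mem_maximalIdeal x).mp hx)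
  obtain ⟨a, b, hab⟩ := Ideal.mem_span_pair.mp h1
  rw [← hab]
  refine Submodule.add_mem_sup ?_ ?_
  · exact Ideal.mem_span_singleton'.mpr ⟨a, rfl⟩
  · exact Ideal.mem_span_singleton'.mpr ⟨b, rfl⟩

/-- **(X2') at a level**: every `y` not divisible by `ϖ` is `t ^ n * s` modulo `ϖ` with `s` a
unit. -/
theorem exists_pow_mul_sub_mem_span (L : SmoothLevel A O res Q T t R ϖ)
    {y : R} (hy : ¬ constHom R (unif L) ∣ y) :
    ∃ (n : ℕ) (s : R), IsUnit s ∧ y - coord L ^ n * s ∈ Ideal.span {constHom R (unif L)} := by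
  have := L.noeth
  have := L.isLocal
  refine exists_pow_mul_sub_mem (Ideal.span {constHom R (unif L)}) (coord L)
    ((mem_maximalIdeal _).mpr L.t_nonunit) (maximalIdeal_le L) ?_
  rwa [Ideal.mem_span_singleton]

/-- the reduction of a function of the level is regular at the point -/
theorem adicValuation_res_le_one (L : SmoothLevel A O res Q T t R ϖ)
    (hres : ∀ (a : K) (ha : a ∈ A) (h : algebraMap K F a ∈ O),
      res ⟨algebraMap K F a, h⟩ = algebraMap k Ft (π ⟨a, ha⟩)) (y : R) :
    Q.adicValuation (res ⟨y, L.le y y.2⟩) ≤ 1 := by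
  obtain ⟨a, ha⟩ := L.exists_isValueAt hres y
  exact ha.adicValuation_le_one

/-- the reduction of a unit of the level has order `0` at the point -/
theorem ord_res_eq_zero_of_isUnit (L : SmoothLevel A O res Q T t R ϖ)
    (hres : ∀ (a : K) (ha : a ∈ A) (h : algebraMap K F a ∈ O),
      res ⟨algebraMap K F a, h⟩ = algebraMap k Ft (π ⟨a, ha⟩)) {s : R} (hs : IsUnit s) :
    Q.adicValuation (res ⟨s, L.le s s.2⟩) = 1 := by
  obtain ⟨s', hs'⟩ := isUnit_iff_exists_inv.mp hs
  have h1 := adicValuation_res_le_one L hres s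
  have h2 := adicValuation_res_le_one L hres s'
  have e : (⟨s, L.le s s.2⟩ : O) * ⟨s', L.le s' s'.2⟩ = 1 := by
    apply Subtype.ext
    exact congrArg (fun x : R => (x : F)) hs'
  have h3 : Q.adicValuation (res ⟨s, L.le s s.2⟩) * Q.adicValuation (res ⟨s', L.le s' s'.2⟩) = 1 := by
    rw [← map_mul, ← map_mul, e, map_one, map_one]
  refine le_antisymm h1 ?_
  by_contra hlt
  push Not at hlt
  have h4 : Q.adicValuation (res ⟨s, L.le s s.2⟩) * Q.adicValuation (res ⟨s', L.le s' s'.2⟩) < 1 :=
    mul_lt_one_of_nonneg_of_lt_one_left zero_le hlt h2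
  rw [h3] at h4
  exact lt_irrefl _ h4

/-- **Taylor order = order of the reduction**: if `y ≡ t ^ n * s` modulo `ϖ` with `s` a unit, the
reduction of `y` has order `n` at the point. -/
theorem ord_res_eq (L : SmoothLevel A O res Q T t R ϖ)
    (hres : ∀ (a : K) (ha : a ∈ A) (h : algebraMap K F a ∈ O),
      res ⟨algebraMap K F a, h⟩ = algebraMap k Ft (π ⟨a, ha⟩))
    (hker : ∀ x : O, (x : F) ∈ O.nonunits → res x = 0)
    (hAO : ∀ c : K, A.valuation c < 1 → algebraMap K F c ∈ O.nonunits)
    (hord : Q.ord (res ⟨t, L.le t L.t_mem⟩) = 1) {y s : R} {n : ℕ} (hs : IsUnit s)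
    (hys : y - coord L ^ n * s ∈ Ideal.span {constHom R (unif L)}) :
    Q.ord (res ⟨y, L.le y y.2⟩) = n := by
  -- the difference reduces to zero
  have h0 : res ⟨((y - coord L ^ n * s : R) : F), L.le _ (y - coord L ^ n * s : R).2⟩ = 0 := by
    apply hker
    exact (mem_nonunits_iff_unif_dvd L hAO _).mpr (Ideal.mem_span_singleton.mp hys)
  have e : (⟨((y - coord L ^ n * s : R) : F), L.le _ (y - coord L ^ n * s : R).2⟩ : O) =
      ⟨y, L.le y y.2⟩ - ⟨t, L.le t L.t_mem⟩ ^ n * ⟨s, L.le s s.2⟩ := rfl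
  rw [e, map_sub, map_mul, map_pow, sub_eq_zero] at h0
  rw [h0]
  have hs1 := ord_res_eq_zero_of_isUnit L hres hs
  have ht0 : res ⟨t, L.le t L.t_mem⟩ ≠ 0 := by
    intro h
    rw [h, Place.ord_zero] at hord
    exact zero_ne_one hord
  have hs0 : res ⟨s, L.le s s.2⟩ ≠ 0 := by
    intro h
    rw [h, map_zero] at hs1
    exact zero_ne_one hs1
  have hsord : Q.ord (res ⟨s, L.le s s.2⟩) = 0 := by
    unfold Place.ord
    rw [hs1]
    simp
  rw [Place.ord_mul _ (pow_ne_zero n ht0) hs0, hsord, add_zero, ← zpow_natCast, Place.ord_zpow,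
    hord, mul_one]

/-! ### the Gauss and order clauses of the expansion -/

section Expand

variable {Ω : Type*} [NormedField Ω] [IsUltrametricDist Ω] {B : Type*} [CommRing B]
  (L : SmoothLevel A O res Q T t R ϖ)
  (j : K →+* Ω) (hj : ∀ x : K, x ∈ A → ‖j x‖ ≤ 1)
  (hj' : ∀ x : K, A.valuation x < 1 → ‖j x‖ < 1)
  (D : DiscTarget (constRing (K := K) R) B Ω (unif L) (j.comp (constRing R).subtype))
  (hcollar : ∀ ρ : ℝ, ρ < 1 → ∃ P : T, ρ < ‖j (evalAt P.1 t)‖)

/-- **The Gauss clause (X2d)**: a function of the level is divisible by the uniformizer iff its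
expansion is. (`(ϖ)` prime in `B`, `X ∉ (ϖ)`: true for `B = W[[T]]`.) -/
theorem unif_dvd_iff_discExpand_mem (hB : (Ideal.span {D.c (unif L)}).IsPrime)
    (hX : D.X ∉ Ideal.span {D.c (unif L)}) (y : R) :
    constHom R (unif L) ∣ y ↔
      discExpand L j hj hj' D hcollar y ∈ Ideal.span {D.c (unif L)} := by
  have := L.noeth
  have := L.isLocal
  have h1 : (Ideal.span {D.c (unif L)}).comap (discExpand L j hj hj' D hcollar) =
      Ideal.span {constHom R (unif L)} := by
    refine comap_eq_of_le (discExpand L j hj hj' D hcollar) (Ideal.span {constHom R (unif L)})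
      (coord L) ((mem_maximalIdeal _).mpr L.t_nonunit) (maximalIdeal_le L) _ ?_ ?_
    · intro x hx
      obtain ⟨z, rfl⟩ := Ideal.mem_span_singleton.mp hx
      rw [map_mul, discExpand_const]
      exact Ideal.mul_mem_right _ _ (Ideal.subset_span rfl)
    · rw [discExpand_coord]
      exact hX
  rw [← Ideal.mem_span_singleton, ← h1, Ideal.mem_comap]

/-- **The order clause (X2d)**: if `y ≡ t ^ n * s` modulo `ϖ` with `s` a unit of the level, then
`expand y ≡ X ^ n * expand s` modulo `ϖ`, and `expand s` is a unit. -/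
theorem discExpand_sub_mem {y s : R} {n : ℕ} (hs : IsUnit s)
    (hys : y - coord L ^ n * s ∈ Ideal.span {constHom R (unif L)}) :
    IsUnit (discExpand L j hj hj' D hcollar s) ∧
      discExpand L j hj hj' D hcollar y - D.X ^ n * discExpand L j hj hj' D hcollar s ∈
        Ideal.span {D.c (unif L)} := by
  refine ⟨hs.map _, ?_⟩
  obtain ⟨z, hz⟩ := Ideal.mem_span_singleton.mp hys
  have h1 := congrArg (discExpand L j hj hj' D hcollar) hz
  rw [map_sub, map_mul, map_pow, discExpand_coord, map_mul, discExpand_const] at h1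
  rw [h1]
  exact Ideal.mul_mem_right _ _ (Ideal.subset_span rfl)

end Expand

end Fermat.Agent.FF3.ExpandDisc
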