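/-
Programme I (S33, p-new half), contract D-B3 §4b (helper25): rational functions with prescribed
poles on a disc, on a smooth level of main (the main-dialect heart of `disc_rat` / `disc_unit` of
helper22's `ExpPack`).

* `IsFrac R y` : `y` is a quotient of functions of `R`; closed under `1`, `*`, `⁻¹`, `^ (n : ℤ)`,
  finite products;
* `mul_prod_zpow_mem` : for a quotient `h` of functions of a level, integral on the component, a
  finite set `s` of constants of the level of absolute value `< 1` (coordinates of rational points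
  of the disc) and exponents `n : K → ℤ` with `0 ≤ ord_P h + n (t(P))` on the tube (`n := 0`
  outside `s`), the function `h * ∏_{c ∈ s} (t - c) ^ n c` lies in the level;
* `isUnit_mul_prod_zpow` : and it is a unit of the level if moreover `h` is a unit of the component
  and all the inequalities are equalities.
-/
import Mathlib
import Fermat.Agent.FF3.ExpandDisc.Points

set_option autoImplicit false

namespace Fermat.Agent.FF3.ExpandDisc

open AlgebraicCurve IsLocalRing Fermat.Agent.Red Fermat.Agent.X0 Fermat.Agent.BR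
  Fermat.Agent.BR.Centre Fermat.Agent.BR.S0

variable {K F k : Type*} [Field K] [Field F] [Algebra K F] [Field k]
  {Ft : Type*} [Field Ft] [Algebra k Ft]

/-! ### quotients of functions of a ring -/

/-- `y` is a quotient of elements of `R` -/
def IsFrac (R : Subring F) (y : F) : Prop := ∃ a b : R, b ≠ 0 ∧ y * (b : F) = (a : F)

namespace IsFrac

variable {R : Subring F}

theorem of_mem {y : F} (hy : y ∈ R) : IsFrac R y :=
  ⟨⟨y, hy⟩, 1, one_ne_zero, by rw [OneMemClass.coe_one, mul_one]⟩

theorem one : IsFrac R (1 : F) := of_mem R.one_mem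

theorem mul {y y' : F} (h : IsFrac R y) (h' : IsFrac R y') : IsFrac R (y * y') := by
  obtain ⟨a, b, hb, hab⟩ := h
  obtain ⟨a', b', hb', hab'⟩ := h'
  refine ⟨a * a', b * b', mul_ne_zero hb hb', ?_⟩
  show y * y' * ((b : F) * (b' : F)) = (a : F) * (a' : F)
  rw [← hab, ← hab']
  ring

theorem inv {y : F} (h : IsFrac R y) : IsFrac R y⁻¹ := by
  obtain ⟨a, b, hb, hab⟩ := h
  rcases eq_or_ne y 0 with rfl | hy
  · rw [inv_zero]
    exact of_mem R.zero_mem
  have hbF : (b : F) ≠ 0 := fun h => hb (Subtype.ext h)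
  have ha : a ≠ 0 := by
    rintro rfl
    rw [ZeroMemClass.coe_zero] at hab
    exact (mul_ne_zero hy hbF) hab
  refine ⟨b, a, ha, ?_⟩
  rw [← hab]
  field_simp

theorem pow {y : F} (h : IsFrac R y) (n : ℕ) : IsFrac R (y ^ n) := by
  induction n with
  | zero => rw [pow_zero]; exact one
  | succ n ih => rw [pow_succ]; exact ih.mul h

theorem zpow {y : F} (h : IsFrac R y) (n : ℤ) : IsFrac R (y ^ n) := by
  cases n with
  | ofNat n => rw [Int.ofNat_eq_natCast, zpow_natCast]; exact h.pow n
  | negSucc n => rw [zpow_negSucc]; exact (h.pow (n + 1)).inv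

theorem prod {ι : Type*} (s : Finset ι) (f : ι → F) (h : ∀ i ∈ s, IsFrac R (f i)) :
    IsFrac R (∏ i ∈ s, f i) := by
  classical
  induction s using Finset.induction_on with
  | empty => rw [Finset.prod_empty]; exact one
  | insert a s ha ih =>
    rw [Finset.prod_insert ha]
    exact (h a (Finset.mem_insert_self a s)).mul
      (ih fun i hi => h i (Finset.mem_insert_of_mem hi))

end IsFrac

/-! ### the factors `t - c` -/

section Level

variable {A : ValuationSubring K} {O : ValuationSubring F} {res : O →+* Ft}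
  {Q : Place k Ft} {T : Set (Place K F)} {t : F} {ι : Type*} {R : ι → Subring F} {ϖ : ι → K}

/-- `t - c` is a unit of the component for `|c| < 1` -/
theorem valuation_coord_sub (H : SmoothFamily A O res Q T t R ϖ)
    (hAO : ∀ c : K, A.valuation c < 1 → algebraMap K F c ∈ O.nonunits)
    (ht : t ∉ O.nonunits) {c : K} (hc : A.valuation c < 1) :
    O.valuation (t - algebraMap K F c) = 1 := by
  obtain ⟨i⟩ := H.nonempty
  have htO : t ∈ O := (H.level i).le t (H.level i).t_mem
  have h1 : O.valuation t = 1 := by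
    refine le_antisymm ((O.valuation_le_one_iff _).mpr htO) (not_lt.mp fun hlt => ht ?_)
    exact (ValuationSubring.mem_nonunits_iff O).mpr hlt
  have h2 : O.valuation (algebraMap K F c) < 1 :=
    (ValuationSubring.mem_nonunits_iff O).mp (hAO c hc)
  rw [Valuation.map_sub_eq_of_lt_left _ (by rw [h1]; exact h2), h1]

/-- the order of `t - c` at a place of the tube -/
theorem ord_coord_sub [DecidableEq K] (H : SmoothFamily A O res Q T t R ϖ)
    (hAO : ∀ c : K, A.valuation c < 1 → algebraMap K F c ∈ O.nonunits)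
    {P : Place K F} (hP : P ∈ T) {c₀ : K} (hc₀ : IsValueAt P t c₀) (c : K) :
    P.ord (t - algebraMap K F c) = if c = c₀ then 1 else 0 := by
  split_ifs with h
  · rw [h]
    exact H.simple hAO hP hc₀
  · have h1 : IsValueAt P (t - algebraMap K F c) (c₀ - c) := hc₀.sub (isValueAt_algebraMap P c)
    have h2 : c₀ - c ≠ 0 := sub_ne_zero.mpr (Ne.symm h)
    have h3 := h1.adicValuation_eq_one h2
    unfold Place.ord
    rw [h3]
    simp

/-- the order at a place of the tube of a product of powers of factors `t - c` -/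
theorem ord_prod_coord_sub [DecidableEq K] (H : SmoothFamily A O res Q T t R ϖ)
    (hAO : ∀ c : K, A.valuation c < 1 → algebraMap K F c ∈ O.nonunits)
    (ht : t ∉ O.nonunits)
    {P : Place K F} (hP : P ∈ T) {c₀ : K} (hc₀ : IsValueAt P t c₀) (s : Finset K)
    (hs : ∀ c ∈ s, A.valuation c < 1) (n : K → ℤ) :
    P.ord (∏ c ∈ s, (t - algebraMap K F c) ^ n c) = if c₀ ∈ s then n c₀ else 0 := by
  have hne : ∀ c ∈ s, t - algebraMap K F c ≠ 0 := by
    intro c hc h0
    have := valuation_coord_sub H hAO ht (hs c hc)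
    rw [h0, map_zero] at this
    exact zero_ne_one this
  induction s using Finset.induction_on with
  | empty => simp
  | insert a s ha ih =>
    have hs' : ∀ c ∈ s, A.valuation c < 1 := fun c hc => hs c (Finset.mem_insert_of_mem hc)
    have hne' : ∀ c ∈ s, t - algebraMap K F c ≠ 0 := fun c hc =>
      hne c (Finset.mem_insert_of_mem hc)
    have ha0 : (t - algebraMap K F a) ^ n a ≠ 0 :=
      zpow_ne_zero _ (hne a (Finset.mem_insert_self a s))
    have hp0 : ∏ c ∈ s, (t - algebraMap K F c) ^ n c ≠ 0 :=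
      Finset.prod_ne_zero_iff.mpr fun c hc => zpow_ne_zero _ (hne' c hc)
    rw [Finset.prod_insert ha, Place.ord_mul _ ha0 hp0, ih hs' hne', Place.ord_zpow,
      ord_coord_sub H hAO hP hc₀ a]
    by_cases h1 : a = c₀
    · subst h1
      simp [ha]
    · by_cases h2 : c₀ ∈ s
      · simp [h1, h2, Ne.symm h1]
      · simp [h1, h2, Ne.symm h1]

/-- **Functions with prescribed poles on the disc lie in the level.** -/
theorem mul_prod_zpow_mem [DecidableEq K] (H : SmoothFamily A O res Q T t R ϖ)
    (hAO : ∀ c : K, A.valuation c < 1 → algebraMap K F c ∈ O.nonunits)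
    (ht : t ∉ O.nonunits) (i : ι) {h : F} (hfrac : IsFrac (R i) h) (hO : h ∈ O)
    (s : Finset K) (hsR : ∀ c ∈ s, algebraMap K F c ∈ R i) (hs : ∀ c ∈ s, A.valuation c < 1)
    (n : K → ℤ)
    (hpole : ∀ P ∈ T, ∀ c₀ : K, IsValueAt P t c₀ →
      0 ≤ P.ord h + (if c₀ ∈ s then n c₀ else 0)) :
    h * ∏ c ∈ s, (t - algebraMap K F c) ^ n c ∈ R i := by
  have L := H.level i
  rcases eq_or_ne h 0 with rfl | hh0
  · rw [zero_mul]
    exact (R i).zero_mem
  have hne : ∀ c ∈ s, t - algebraMap K F c ≠ 0 := by
    intro c hc h0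
    have := valuation_coord_sub H hAO ht (hs c hc)
    rw [h0, map_zero] at this
    exact zero_ne_one this
  have hp0 : ∏ c ∈ s, (t - algebraMap K F c) ^ n c ≠ 0 :=
    Finset.prod_ne_zero_iff.mpr fun c hc => zpow_ne_zero _ (hne c hc)
  -- a quotient of functions of the level
  have hz : IsFrac (R i) (h * ∏ c ∈ s, (t - algebraMap K F c) ^ n c) := by
    refine hfrac.mul (IsFrac.prod s _ fun c hc => IsFrac.zpow ?_ _)
    exact IsFrac.of_mem ((R i).sub_mem L.t_mem (hsR c hc))
  obtain ⟨a, b, hb, hab⟩ := hz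
  refine L.mem_of_regular hAO hb hab ?_ ?_
  · -- integral on the component
    rw [← O.valuation_le_one_iff, map_mul, map_prod]
    have h1 : ∏ c ∈ s, O.valuation ((t - algebraMap K F c) ^ n c) = 1 := by
      refine Finset.prod_eq_one fun c hc => ?_
      rw [map_zpow₀, valuation_coord_sub H hAO ht (hs c hc), one_zpow]
    rw [h1, mul_one]
    exact (O.valuation_le_one_iff _).mpr hO
  · -- no pole on the tube
    intro P hP
    have hc₀ := L.isValueAt_evalAt hP
    rw [Place.ord_mul _ hh0 hp0, ord_prod_coord_sub H hAO ht hP hc₀ s hs n]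
    exact hpole P hP _ hc₀

/-- **Functions with prescribed zeros and poles on the disc are units of the level.** -/
theorem isUnit_mul_prod_zpow [DecidableEq K] (H : SmoothFamily A O res Q T t R ϖ)
    (hAO : ∀ c : K, A.valuation c < 1 → algebraMap K F c ∈ O.nonunits)
    (ht : t ∉ O.nonunits) (i : ι) {h : F} (hfrac : IsFrac (R i) h) (hO : O.valuation h = 1)
    (s : Finset K) (hsR : ∀ c ∈ s, algebraMap K F c ∈ R i) (hs : ∀ c ∈ s, A.valuation c < 1)
    (n : K → ℤ)
    (hpole : ∀ P ∈ T, ∀ c₀ : K, IsValueAt P t c₀ →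
      P.ord h + (if c₀ ∈ s then n c₀ else 0) = 0) :
    ∃ z z' : R i, z * z' = 1 ∧ (z : F) = h * ∏ c ∈ s, (t - algebraMap K F c) ^ n c := by
  have hh0 : h ≠ 0 := by
    rintro rfl
    rw [map_zero] at hO
    exact zero_ne_one hO
  have hne : ∀ c ∈ s, t - algebraMap K F c ≠ 0 := by
    intro c hc h0
    have := valuation_coord_sub H hAO ht (hs c hc)
    rw [h0, map_zero] at this
    exact zero_ne_one this
  have hp0 : ∏ c ∈ s, (t - algebraMap K F c) ^ n c ≠ 0 :=
    Finset.prod_ne_zero_iff.mpr fun c hc => zpow_ne_zero _ (hne c hc)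
  have h1 : h * ∏ c ∈ s, (t - algebraMap K F c) ^ n c ∈ R i := by
    refine mul_prod_zpow_mem H hAO ht i hfrac ((O.valuation_le_one_iff _).mp hO.le) s hsR hs n ?_
    intro P hP c₀ hc₀
    exact (hpole P hP c₀ hc₀).ge
  have h2 : h⁻¹ * ∏ c ∈ s, (t - algebraMap K F c) ^ (fun c => - n c) c ∈ R i := by
    refine mul_prod_zpow_mem H hAO ht i hfrac.inv ?_ s hsR hs (fun c => - n c) ?_
    · rw [← O.valuation_le_one_iff, map_inv₀, hO, inv_one]
    · intro P hP c₀ hc₀
      have := hpole P hP c₀ hc₀
      rw [Place.ord_inv]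
      split_ifs with hcs
      · rw [if_pos hcs] at this
        omega
      · rw [if_neg hcs] at this
        omega
  refine ⟨⟨_, h1⟩, ⟨_, h2⟩, ?_, rfl⟩
  apply Subtype.ext
  show (h * ∏ c ∈ s, (t - algebraMap K F c) ^ n c) *
      (h⁻¹ * ∏ c ∈ s, (t - algebraMap K F c) ^ (fun c => - n c) c) = 1
  have e : ∏ c ∈ s, (t - algebraMap K F c) ^ (fun c => - n c) c =
      (∏ c ∈ s, (t - algebraMap K F c) ^ n c)⁻¹ := by
    rw [← Finset.prod_inv_distrib]
    exact Finset.prod_congr rfl fun c _ => zpow_neg _ _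
  rw [e]
  field_simp

end Level

end Fermat.Agent.FF3.ExpandDisc
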