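/-
Programme I (S33, p-new half), contract D-B3 §4b (helper25): the Gauss valuation ring of the
component restricted to the function field of a smooth level, `gaussRing L = O ∩ Frac R`, is the
localisation of the level `R` at its vertical prime `(ϖ)` and a discrete valuation ring with
uniformizer `ϖ`.

* `IsFrac.add`, `IsFrac.neg`, `fracSubring R : Subring F` (the fraction field of `R` inside `F`);
* `gaussRing L : Subring F`, `toGauss L : R →+* gaussRing L`;
* `exists_valuation_eq_zpow` : the valuation of the component on `Frac R` is discrete, generated by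
  the value of `ϖ`; `div_unif_mem` (H1) and `eq_zero_of_forall_div_pow_mem` (H2): the two inputs of
  helper16's `DVCompl.Datum` for `O₀ = O ∩ Frac R`, `w = ϖ`;
* `isLocalization_gaussRing` : `IsLocalization (vertCompl L hAO) (gaussRing L)`, hence
  `gaussLift L hAO ψ hψ : gaussRing L →+* E` for every `ψ : R →+* E` inverting the complement of
  `(ϖ)` (e.g. `ψ = dT ∘ discExpand` into the boundary ring: `FF3.Expand.isUnit_map_of_notMem`), with
  `gaussLift_toGauss` and uniqueness `gaussLift_unique`.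
-/
import Mathlib
import Fermat.Agent.FF3.ExpandDisc.Gauss
import Fermat.Agent.FF3.ExpandDisc.Pole

set_option autoImplicit false

namespace Fermat.Agent.FF3.ExpandDisc

open AlgebraicCurve IsLocalRing Fermat.Agent.Red Fermat.Agent.X0 Fermat.Agent.BR
  Fermat.Agent.BR.Centre Fermat.Agent.BR.S0

variable {K F k : Type*} [Field K] [Field F] [Algebra K F] [Field k]
  {Ft : Type*} [Field Ft] [Algebra k Ft]

/-! ### the fraction field of a ring of functions -/

namespace IsFrac

variable {R : Subring F}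

theorem neg {y : F} (h : IsFrac R y) : IsFrac R (-y) := by
  obtain ⟨a, b, hb, hab⟩ := h
  refine ⟨-a, b, hb, ?_⟩
  rw [neg_mul, hab]
  rfl

theorem add {y y' : F} (h : IsFrac R y) (h' : IsFrac R y') : IsFrac R (y + y') := by
  obtain ⟨a, b, hb, hab⟩ := h
  obtain ⟨a', b', hb', hab'⟩ := h'
  refine ⟨a * b' + a' * b, b * b', mul_ne_zero hb hb', ?_⟩
  show (y + y') * ((b : F) * (b' : F)) = (a : F) * (b' : F) + (a' : F) * (b : F)
  rw [← hab, ← hab']
  ring

end IsFrac

/-- the fraction field of `R` inside `F`, as a subring -/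
def fracSubring (R : Subring F) : Subring F where
  carrier := {y | IsFrac R y}
  mul_mem' h h' := h.mul h'
  one_mem' := IsFrac.one
  add_mem' h h' := h.add h'
  zero_mem' := IsFrac.of_mem R.zero_mem
  neg_mem' h := h.neg

theorem mem_fracSubring {R : Subring F} {y : F} : y ∈ fracSubring R ↔ IsFrac R y := Iff.rfl

theorem le_fracSubring (R : Subring F) : R ≤ fracSubring R := fun _ hy => IsFrac.of_mem hy

/-! ### the Gauss ring of a level -/

section Level

variable {A : ValuationSubring K} {O : ValuationSubring F} {res : O →+* Ft}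
  {Q : Place k Ft} {T : Set (Place K F)} {t : F} {R : Subring F} {ϖ : K}

/-- `O ∩ Frac R`: the valuation ring of the component restricted to the function field of the
level -/
def gaussRing (_L : SmoothLevel A O res Q T t R ϖ) : Subring F := O.toSubring ⊓ fracSubring R

theorem mem_gaussRing (L : SmoothLevel A O res Q T t R ϖ) {y : F} :
    y ∈ gaussRing L ↔ y ∈ O ∧ IsFrac R y := Iff.rfl

theorem le_gaussRing (L : SmoothLevel A O res Q T t R ϖ) : R ≤ gaussRing L :=
  fun y hy => ⟨L.le y hy, IsFrac.of_mem hy⟩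

/-- the inclusion of the level in its Gauss ring -/
def toGauss (L : SmoothLevel A O res Q T t R ϖ) : R →+* gaussRing L :=
  Subring.inclusion (le_gaussRing L)

@[simp] theorem coe_toGauss (L : SmoothLevel A O res Q T t R ϖ) (y : R) :
    ((toGauss L y : gaussRing L) : F) = (y : F) := rfl

theorem toGauss_injective (L : SmoothLevel A O res Q T t R ϖ) : Function.Injective (toGauss L) :=
  Subring.inclusion_injective _

/-- **The valuation of the component on the function field of the level is discrete**, generated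
by the value of the uniformizer. -/
theorem exists_valuation_eq_zpow (L : SmoothLevel A O res Q T t R ϖ)
    (hAO : ∀ c : K, A.valuation c < 1 → algebraMap K F c ∈ O.nonunits) {y : F}
    (hy : IsFrac R y) (hy0 : y ≠ 0) :
    ∃ n : ℤ, O.valuation y = O.valuation (algebraMap K F ϖ) ^ n := by
  obtain ⟨a, b, hb, hab⟩ := hy
  have hbF : (b : F) ≠ 0 := fun h => hb (Subtype.ext h)
  have ha : a ≠ 0 := by
    rintro rfl
    rw [ZeroMemClass.coe_zero] at hab
    exact (mul_ne_zero hy0 hbF) hab
  obtain ⟨m, a₁, ha₁, ham⟩ := exists_eq_pow_mul L hAO ha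
  obtain ⟨n, b₁, hb₁, hbn⟩ := exists_eq_pow_mul L hAO hb
  have hva := valuation_eq_pow L hAO ha₁ ham
  have hvb := valuation_eq_pow L hAO hb₁ hbn
  have hvw0 : O.valuation (algebraMap K F ϖ) ≠ 0 :=
    (Valuation.ne_zero_iff _).mpr ((map_ne_zero _).mpr L.unif_ne)
  refine ⟨(m : ℤ) - n, ?_⟩
  have h1 : O.valuation y * O.valuation (algebraMap K F ϖ) ^ n =
      O.valuation (algebraMap K F ϖ) ^ m := by
    rw [← hvb, ← hva, ← map_mul, hab]
  rw [zpow_sub₀ hvw0, zpow_natCast, zpow_natCast, ← h1, mul_div_assoc,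
    div_self (pow_ne_zero n hvw0), mul_one]

/-- **(H1)**: an element of the Gauss ring of valuation `< 1` is divisible by the uniformizer in
the Gauss ring. -/
theorem div_unif_mem (L : SmoothLevel A O res Q T t R ϖ)
    (hAO : ∀ c : K, A.valuation c < 1 → algebraMap K F c ∈ O.nonunits) {y : F}
    (hy : y ∈ gaussRing L) (hlt : O.valuation y < 1) :
    y / algebraMap K F ϖ ∈ gaussRing L := by
  have hϖF : IsFrac R (algebraMap K F ϖ) := IsFrac.of_mem L.unif_mem
  have hfr : IsFrac R (y / algebraMap K F ϖ) := by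
    rw [div_eq_mul_inv]
    exact hy.2.mul hϖF.inv
  refine ⟨?_, hfr⟩
  show y / algebraMap K F ϖ ∈ O
  rcases eq_or_ne y 0 with rfl | hy0
  · rw [zero_div]
    exact O.zero_mem
  obtain ⟨n, hn⟩ := exists_valuation_eq_zpow L hAO hy.2 hy0
  have hvw : O.valuation (algebraMap K F ϖ) < 1 :=
    (ValuationSubring.mem_nonunits_iff O).mp (hAO ϖ L.unif_lt)
  have hvw0 : O.valuation (algebraMap K F ϖ) ≠ 0 :=
    (Valuation.ne_zero_iff _).mpr ((map_ne_zero _).mpr L.unif_ne)
  have hvwpos : 0 < O.valuation (algebraMap K F ϖ) := zero_lt_iff.mpr hvw0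
  -- `n ≥ 1`
  have hn1 : 1 ≤ n := by
    by_contra hcon
    push Not at hcon
    have hn0 : n ≤ 0 := by omega
    have : 1 ≤ O.valuation (algebraMap K F ϖ) ^ n := by
      obtain ⟨m, rfl⟩ : ∃ m : ℕ, n = -(m : ℤ) := ⟨(-n).toNat, by omega⟩
      rw [zpow_neg, zpow_natCast]
      exact (one_le_inv₀ (pow_pos hvwpos m)).mpr (pow_le_one₀ zero_le hvw.le)
    rw [← hn] at this
    exact absurd hlt (not_lt.mpr this)
  rw [← O.valuation_le_one_iff, map_div₀, hn]
  have e : O.valuation (algebraMap K F ϖ) ^ n / O.valuation (algebraMap K F ϖ) =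
      O.valuation (algebraMap K F ϖ) ^ (n - 1) := by
    rw [zpow_sub₀ hvw0, zpow_one]
  rw [e]
  obtain ⟨m, hm⟩ : ∃ m : ℕ, n - 1 = (m : ℤ) := ⟨(n - 1).toNat, by omega⟩
  rw [hm, zpow_natCast]
  exact pow_le_one₀ zero_le hvw.le

/-- **(H2)**: an element of the Gauss ring divisible by all the powers of the uniformizer is
zero. -/
theorem eq_zero_of_forall_div_pow_mem (L : SmoothLevel A O res Q T t R ϖ)
    (hAO : ∀ c : K, A.valuation c < 1 → algebraMap K F c ∈ O.nonunits) {y : F}
    (hy : IsFrac R y) (h : ∀ n : ℕ, y / algebraMap K F ϖ ^ n ∈ O) : y = 0 := by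
  by_contra hy0
  obtain ⟨n, hn⟩ := exists_valuation_eq_zpow L hAO hy hy0
  have hvw : O.valuation (algebraMap K F ϖ) < 1 :=
    (ValuationSubring.mem_nonunits_iff O).mp (hAO ϖ L.unif_lt)
  have hvw0 : O.valuation (algebraMap K F ϖ) ≠ 0 :=
    (Valuation.ne_zero_iff _).mpr ((map_ne_zero _).mpr L.unif_ne)
  have hvwpos : 0 < O.valuation (algebraMap K F ϖ) := zero_lt_iff.mpr hvw0
  -- take `N > n`
  obtain ⟨N, hN⟩ : ∃ N : ℕ, n < (N : ℤ) := ⟨(n + 1).toNat, by omega⟩
  have h1 := (O.valuation_le_one_iff _).mpr (h N)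
  rw [map_div₀, map_pow, hn, ← zpow_natCast, ← zpow_sub₀ hvw0] at h1
  obtain ⟨m, hm⟩ : ∃ m : ℕ, n - (N : ℤ) = -((m : ℤ) + 1) := ⟨(N - n - 1).toNat, by omega⟩
  rw [hm, zpow_neg, ← Nat.cast_succ, zpow_natCast] at h1
  have h2 : O.valuation (algebraMap K F ϖ) ^ (m + 1) < 1 :=
    pow_lt_one₀ zero_le hvw (Nat.succ_ne_zero m)
  have h3 : 1 < (O.valuation (algebraMap K F ϖ) ^ (m + 1))⁻¹ :=
    (one_lt_inv₀ (pow_pos hvwpos _)).mpr h2
  exact absurd h1 (not_le.mpr h3)

/-! ### the Gauss ring is the localisation of the level at `(ϖ)` -/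

/-- a function of the level not divisible by the uniformizer is a unit of the Gauss ring -/
theorem isUnit_toGauss_of_not_dvd (L : SmoothLevel A O res Q T t R ϖ)
    (hAO : ∀ c : K, A.valuation c < 1 → algebraMap K F c ∈ O.nonunits) {s : R}
    (hs : ¬ constHom R (unif L) ∣ s) : IsUnit (toGauss L s) := by
  have h1 := valuation_eq_one_of_not_dvd L hAO hs
  have hs0 : (s : F) ≠ 0 := by
    intro h0
    rw [h0, map_zero] at h1
    exact zero_ne_one h1
  have hinv : (s : F)⁻¹ ∈ gaussRing L := by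
    refine ⟨?_, (IsFrac.of_mem s.2).inv⟩
    show (s : F)⁻¹ ∈ O
    rw [← O.valuation_le_one_iff, map_inv₀, h1, inv_one]
  refine isUnit_iff_exists_inv.mpr ⟨⟨_, hinv⟩, ?_⟩
  apply Subtype.ext
  show (s : F) * (s : F)⁻¹ = 1
  exact mul_inv_cancel₀ hs0

/-- the complement of the vertical prime `(ϖ)` of a level -/
def vertCompl (L : SmoothLevel A O res Q T t R ϖ)
    (hAO : ∀ c : K, A.valuation c < 1 → algebraMap K F c ∈ O.nonunits) : Submonoid R where
  carrier := {s | ¬ constHom R (unif L) ∣ s}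
  one_mem' := fun h => L.unif_nonunit (hAO ϖ L.unif_lt) (isUnit_of_dvd_one h)
  mul_mem' := by
    intro a b ha hb hab
    have hP : (Ideal.span {constHom R (unif L)}).IsPrime := isPrime_span_unif L hAO
    rcases hP.mem_or_mem (Ideal.mem_span_singleton.mpr hab) with h | h
    · exact ha (Ideal.mem_span_singleton.mp h)
    · exact hb (Ideal.mem_span_singleton.mp h)

theorem mem_vertCompl (L : SmoothLevel A O res Q T t R ϖ)
    (hAO : ∀ c : K, A.valuation c < 1 → algebraMap K F c ∈ O.nonunits) {s : R} :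
    s ∈ vertCompl L hAO ↔ ¬ constHom R (unif L) ∣ s := Iff.rfl

/-- **The Gauss ring is the localisation of the level at its vertical prime.** -/
theorem isLocalization_gaussRing (L : SmoothLevel A O res Q T t R ϖ)
    (hAO : ∀ c : K, A.valuation c < 1 → algebraMap K F c ∈ O.nonunits) :
    @IsLocalization R _ (vertCompl L hAO) (gaussRing L) _ (toGauss L).toAlgebra := by
  letI := (toGauss L).toAlgebra
  refine ⟨⟨?_, ?_, ?_⟩⟩
  · rintro ⟨s, hs⟩
    exact isUnit_toGauss_of_not_dvd L hAO hs
  · intro z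
    obtain ⟨hzO, a, b, hb, hab⟩ := z.2
    obtain ⟨a', s, hs, has⟩ := exists_mul_mem_of_mem L hAO hb hab hzO
    refine ⟨⟨a', ⟨s, hs⟩⟩, ?_⟩
    apply Subtype.ext
    exact has
  · intro x y hxy
    refine ⟨1, ?_⟩
    have : x = y := toGauss_injective L hxy
    rw [this]

/-- **The lift to the Gauss ring** of a homomorphism inverting the complement of `(ϖ)`. -/
noncomputable def gaussLift {E : Type*} [CommRing E] (L : SmoothLevel A O res Q T t R ϖ)
    (hAO : ∀ c : K, A.valuation c < 1 → algebraMap K F c ∈ O.nonunits) (ψ : R →+* E)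
    (hψ : ∀ s : R, ¬ constHom R (unif L) ∣ s → IsUnit (ψ s)) : gaussRing L →+* E :=
  letI := (toGauss L).toAlgebra
  haveI := isLocalization_gaussRing L hAO
  IsLocalization.lift (M := vertCompl L hAO) (S := gaussRing L) (g := ψ) fun s => hψ s.1 s.2

theorem gaussLift_toGauss {E : Type*} [CommRing E] (L : SmoothLevel A O res Q T t R ϖ)
    (hAO : ∀ c : K, A.valuation c < 1 → algebraMap K F c ∈ O.nonunits) (ψ : R →+* E)
    (hψ : ∀ s : R, ¬ constHom R (unif L) ∣ s → IsUnit (ψ s)) (y : R) :
    gaussLift L hAO ψ hψ (toGauss L y) = ψ y := by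
  letI := (toGauss L).toAlgebra
  haveI := isLocalization_gaussRing L hAO
  exact IsLocalization.lift_eq (M := vertCompl L hAO) (S := gaussRing L) _ y

theorem gaussLift_unique {E : Type*} [CommRing E] (L : SmoothLevel A O res Q T t R ϖ)
    (hAO : ∀ c : K, A.valuation c < 1 → algebraMap K F c ∈ O.nonunits) (ψ : R →+* E)
    (hψ : ∀ s : R, ¬ constHom R (unif L) ∣ s → IsUnit (ψ s)) (Ψ : gaussRing L →+* E)
    (hΨ : ∀ y : R, Ψ (toGauss L y) = ψ y) : Ψ = gaussLift L hAO ψ hψ := by
  letI := (toGauss L).toAlgebra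
  haveI := isLocalization_gaussRing L hAO
  refine IsLocalization.ringHom_ext (vertCompl L hAO) ?_
  ext y
  show Ψ (toGauss L y) = gaussLift L hAO ψ hψ (toGauss L y)
  rw [hΨ, gaussLift_toGauss]

end Level

end Fermat.Agent.FF3.ExpandDisc
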