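/-
Programme I (S33, p-new half), contract D-B3 §4b / assembly node T3 (helper25): the BOUNDARY RING of
the disc ring `B` (intended `B = W[[X]]`), Mathlib-only and purely algebraic:

  `Bd w X = (B[1/X])^` , the `w`-adic completion of the localisation of `B` away from the
  coordinate `X` (for `B = W[[X]]`: the unit ball of the Amice ring, `{∑_{n ∈ ℤ} a_n X^n}`,
  `a_n → 0` for `n → -∞`).

* `BoundaryRing w X E` : what the disc part asks of a boundary ring `E` of `B` (abstractly), with
  `BoundaryRing.isUnit_of_sub_mem`; `bdBoundary : BoundaryRing w X (Bd w X)`;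
* `toBd w X : B →+* Bd w X`;
* `isAdicComplete_Bd` : `Bd w X` is `(toBd w)`-adically complete (input of `DVCompl.Datum.lift`);
* `isUnit_toBd_coord` : the coordinate is a unit of the boundary ring;
* `isUnit_toBd_of_sub_mem` : `toBd g` is a unit as soon as `g - X ^ n * s ∈ (w)` for a unit `s`;
* `mem_span_of_toBd_eq_mul` (AM) : `toBd g ∈ w · Bd` implies `g ∈ (w)`, for `(w)` prime, `X ∉ (w)`;
* `toBd_unif_mul_cancel` : `w` is not a zero divisor of the boundary ring (for `B` a domain).
-/
import Mathlib

set_option autoImplicit false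

namespace Fermat.Agent.FF3.ExpandDisc

/-! ### generalities on completions along a principal ideal -/

section General

variable {M : Type*} [CommRing M] (a : M)

/-- a regular element stays regular in the completion along the ideal it generates -/
theorem adicCompletion_eq_zero_of_mul_eq_zero (ha : ∀ m : M, a * m = 0 → m = 0)
    (z : AdicCompletion (Ideal.span {a}) M)
    (hz : algebraMap M (AdicCompletion (Ideal.span {a}) M) a * z = 0) : z = 0 := by
  obtain ⟨f, rfl⟩ := AdicCompletion.mk_surjective (Ideal.span {a}) M z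
  refine AdicCompletion.ext_evalₐ fun n => ?_
  rw [map_zero, AdicCompletion.evalₐ_mk]
  -- the `(n+1)`-st term
  have h1 := congrArg (AdicCompletion.evalₐ (Ideal.span {a}) (n + 1)) hz
  rw [map_mul, map_zero, AdicCompletion.evalₐ_mk, AdicCompletion.algebraMap_apply,
    Algebra.algebraMap_self, RingHom.id_apply, AdicCompletion.evalₐ_of, ← map_mul,
    Ideal.Quotient.eq_zero_iff_mem, Ideal.span_singleton_pow, Ideal.mem_span_singleton] at h1
  obtain ⟨m', hm'⟩ := h1
  have h2 : f.val (n + 1) = a ^ n * m' := by
    have : a * (f.val (n + 1) - a ^ n * m') = 0 := by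
      rw [mul_sub, hm']
      ring
    exact sub_eq_zero.mp (ha _ this)
  have h3 := AdicCompletion.AdicCauchySequence.mk_eq_mk (Nat.le_succ n) f
  rw [Ideal.Quotient.eq_zero_iff_mem]
  have h4 : f.val n - f.val (n + 1) ∈ (Ideal.span {a} ^ n • ⊤ : Submodule M M) := by
    rw [← Submodule.Quotient.eq]
    exact h3.symm
  have h5 : (Ideal.span {a} ^ n • ⊤ : Submodule M M) = Ideal.span {a} ^ n := by
    ext y
    simp
  rw [h5] at h4
  have h6 : f.val (n + 1) ∈ Ideal.span {a} ^ n := by
    rw [h2, Ideal.span_singleton_pow]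
    exact Ideal.mem_span_singleton.mpr ⟨m', rfl⟩
  have := Ideal.add_mem _ h4 h6
  rwa [sub_add_cancel] at this

/-- an element whose image in the completion is divisible by `a` is divisible by `a` -/
theorem mem_span_of_algebraMap_eq_mul (m : M) (z : AdicCompletion (Ideal.span {a}) M)
    (hz : algebraMap M (AdicCompletion (Ideal.span {a}) M) m =
      algebraMap M (AdicCompletion (Ideal.span {a}) M) a * z) : m ∈ Ideal.span {a} := by
  have h1 := congrArg (AdicCompletion.evalOneₐ (Ideal.span {a})) hz
  rw [map_mul, AdicCompletion.algebraMap_apply, AdicCompletion.algebraMap_apply,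
    Algebra.algebraMap_self, RingHom.id_apply, RingHom.id_apply, AdicCompletion.evalOneₐ_of,
    AdicCompletion.evalOneₐ_of] at h1
  have h2 : (Ideal.Quotient.mk (Ideal.span {a}) a) = 0 :=
    Ideal.Quotient.eq_zero_iff_mem.mpr (Ideal.mem_span_singleton_self a)
  rw [h2, zero_mul] at h1
  exact Ideal.Quotient.eq_zero_iff_mem.mp h1

theorem isAdicComplete_adicCompletion_span :
    IsAdicComplete
      (Ideal.span {algebraMap M (AdicCompletion (Ideal.span {a}) M) a})
      (AdicCompletion (Ideal.span {a}) M) := by
  have h := AdicCompletion.isAdicComplete_self (Ideal.span {a}) ⟨{a}, by simp⟩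
  rwa [Ideal.map_span, Set.image_singleton] at h

end General

/-! ### boundary rings, abstractly -/

/-- **A boundary ring of the disc ring `B`** (uniformizer `w`, coordinate `X`): a `w`-adically
complete ring `E` under `B` in which the coordinate is a unit, `w` is not a zero divisor, and
`B ∩ w E = w B`.  Instances: `bdBoundary` (the algebraic one, `E = (B[1/X])^`); the unit ball of the
Amice ring of bounded Laurent series. -/
structure BoundaryRing {B : Type*} [CommRing B] (w X : B) (E : Type*) [CommRing E] where
  /-- the map from the disc ring to its boundary ring -/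
  dT : B →+* E
  complete : IsAdicComplete (Ideal.span {dT w}) E
  isUnit_coord : IsUnit (dT X)
  /-- (AM) -/
  am : ∀ g : B, (∃ z : E, dT g = dT w * z) → g ∈ Ideal.span {w}
  cancel : ∀ z z' : E, dT w * z = dT w * z' → z = z'

namespace BoundaryRing

variable {B : Type*} [CommRing B] {w X : B} {E : Type*} [CommRing E] (bd : BoundaryRing w X E)

/-- `1 + w z` is a unit of the boundary ring -/
theorem isUnit_one_add_unif_mul (z : E) : IsUnit (1 + bd.dT w * z) := by
  have hc := bd.complete
  have h1 : bd.dT w ∈ Ideal.jacobson (⊥ : Ideal E) :=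
    IsAdicComplete.le_jacobson_bot (Ideal.span {bd.dT w}) (Ideal.mem_span_singleton_self _)
  have h2 := Ideal.mem_jacobson_bot.mp h1 z
  rwa [add_comm] at h2

/-- the image of `g ≡ X ^ n s (mod w)`, `s` a unit, is a unit of the boundary ring -/
theorem isUnit_of_sub_mem {g s : B} {n : ℕ} (hs : IsUnit s)
    (h : g - X ^ n * s ∈ Ideal.span {w}) : IsUnit (bd.dT g) := by
  obtain ⟨b, hb⟩ := Ideal.mem_span_singleton'.mp h
  have hu : IsUnit (bd.dT (X ^ n * s)) := by
    rw [map_mul, map_pow]
    exact (bd.isUnit_coord.pow n).mul (hs.map _)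
  obtain ⟨u, hu'⟩ := hu
  have e : bd.dT g = (u : E) * (1 + bd.dT w * (↑u⁻¹ * bd.dT b)) := by
    have e1 : g = X ^ n * s + b * w := by rw [hb]; ring
    rw [mul_add, mul_one, ← mul_assoc, mul_comm (u : E) (bd.dT w), mul_assoc,
      ← mul_assoc (u : E), Units.mul_inv, one_mul, hu', ← map_mul, ← map_add]
    congr 1
    rw [e1]
    ring
  rw [e]
  exact u.isUnit.mul (bd.isUnit_one_add_unif_mul _)

/-- **the disc root property (L11)** for the exponent `n`: an `n`-th root in the boundary ring of a
unit of the disc ring lies in the disc ring (`hroot` of helper22's `ExpPack.mem_sec_neg_of_roots`) -/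
def HasRoots (n : ℕ) : Prop :=
  ∀ g : B, IsUnit g → ∀ u : E, u ^ n = bd.dT g → ∃ t : B, bd.dT t = u

end BoundaryRing

/-! ### the boundary ring -/

section Boundary

variable {B : Type*} [CommRing B] (w X : B)

/-- the boundary ring of `B` : the `w`-adic completion of `B[1/X]` -/
abbrev Bd : Type _ :=
  AdicCompletion (Ideal.span {algebraMap B (Localization.Away X) w}) (Localization.Away X)

/-- the map from the disc ring to its boundary ring -/
noncomputable def toBd : B →+* Bd w X :=
  (algebraMap (Localization.Away X) (Bd w X)).comp (algebraMap B (Localization.Away X))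

theorem toBd_apply (g : B) :
    toBd w X g = algebraMap (Localization.Away X) (Bd w X) (algebraMap B (Localization.Away X) g) :=
  rfl

/-- the boundary ring is complete for the uniformizer -/
theorem isAdicComplete_Bd : IsAdicComplete (Ideal.span {toBd w X w}) (Bd w X) :=
  isAdicComplete_adicCompletion_span (algebraMap B (Localization.Away X) w)

/-- the coordinate is a unit of the boundary ring -/
theorem isUnit_toBd_coord : IsUnit (toBd w X X) :=
  (IsLocalization.Away.algebraMap_isUnit (S := Localization.Away X) X).map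
    (algebraMap (Localization.Away X) (Bd w X))

/-- `1 + w z` is a unit of the boundary ring -/
theorem isUnit_one_add_unif_mul (z : Bd w X) : IsUnit (1 + toBd w X w * z) := by
  have hc := isAdicComplete_Bd w X
  have h1 : toBd w X w ∈ Ideal.jacobson (⊥ : Ideal (Bd w X)) :=
    IsAdicComplete.le_jacobson_bot (Ideal.span {toBd w X w}) (Ideal.mem_span_singleton_self _)
  have h2 := Ideal.mem_jacobson_bot.mp h1 z
  rwa [add_comm] at h2

/-- the image of `g ≡ X ^ n s (mod w)`, `s` a unit, is a unit of the boundary ring -/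
theorem isUnit_toBd_of_sub_mem {g s : B} {n : ℕ} (hs : IsUnit s)
    (h : g - X ^ n * s ∈ Ideal.span {w}) : IsUnit (toBd w X g) := by
  obtain ⟨b, hb⟩ := Ideal.mem_span_singleton'.mp h
  have hu : IsUnit (toBd w X (X ^ n * s)) := by
    rw [map_mul, map_pow]
    exact ((isUnit_toBd_coord w X).pow n).mul (hs.map _)
  obtain ⟨u, hu'⟩ := hu
  have e : toBd w X g = (u : Bd w X) * (1 + toBd w X w * (↑u⁻¹ * toBd w X b)) := by
    have e1 : g = X ^ n * s + b * w := by rw [hb]; ring
    rw [mul_add, mul_one, ← mul_assoc, mul_comm (u : Bd w X) (toBd w X w), mul_assoc,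
      ← mul_assoc (u : Bd w X), Units.mul_inv, one_mul, hu', ← map_mul, ← map_add]
    congr 1
    rw [e1]
    ring
  rw [e]
  exact u.isUnit.mul (isUnit_one_add_unif_mul w X _)

/-- **(AM)** -/
theorem mem_span_of_toBd_eq_mul (hP : (Ideal.span {w}).IsPrime) (hX : X ∉ Ideal.span {w})
    (g : B) (h : ∃ z : Bd w X, toBd w X g = toBd w X w * z) : g ∈ Ideal.span {w} := by
  obtain ⟨z, hz⟩ := h
  have h1 := mem_span_of_algebraMap_eq_mul (algebraMap B (Localization.Away X) w)
    (algebraMap B (Localization.Away X) g) z hz
  obtain ⟨y, hy⟩ := Ideal.mem_span_singleton'.mp h1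
  obtain ⟨⟨b, ⟨_, ⟨n, rfl⟩⟩⟩, hb⟩ := IsLocalization.surj (Submonoid.powers X) y
  -- `g * X ^ n = b * w` in the localisation
  have h2 : algebraMap B (Localization.Away X) (g * X ^ n) =
      algebraMap B (Localization.Away X) (b * w) := by
    rw [map_mul, map_mul, ← hy, ← hb]
    ring
  obtain ⟨⟨_, ⟨m, rfl⟩⟩, hc⟩ := (IsLocalization.eq_iff_exists (Submonoid.powers X) _).mp h2
  have h3 : X ^ (m + n) * g ∈ Ideal.span {w} := by
    have : X ^ (m + n) * g = (X ^ m * b) * w := by
      have hc' : X ^ m * (g * X ^ n) = X ^ m * (b * w) := hc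
      rw [mul_assoc (X ^ m) b w, ← hc']
      ring
    rw [this]
    exact Ideal.mem_span_singleton'.mpr ⟨_, rfl⟩
  rcases hP.mem_or_mem h3 with h4 | h4
  · exact absurd (hP.mem_of_pow_mem _ h4) hX
  · exact h4

/-- `w` is not a zero divisor of the boundary ring -/
theorem toBd_unif_mul_cancel [IsDomain B] (hw : w ≠ 0) (hX0 : X ≠ 0) (z z' : Bd w X)
    (h : toBd w X w * z = toBd w X w * z') : z = z' := by
  have hle : Submonoid.powers X ≤ nonZeroDivisors B :=
    Submonoid.powers_le.mpr (mem_nonZeroDivisors_of_ne_zero hX0)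
  have hdom : IsDomain (Localization.Away X) :=
    IsLocalization.isDomain_of_le_nonZeroDivisors (M := Submonoid.powers X)
      (Localization.Away X) hle
  have hw' : algebraMap B (Localization.Away X) w ≠ 0 := by
    intro h0
    apply hw
    exact (IsLocalization.to_map_eq_zero_iff (M := Submonoid.powers X) (Localization.Away X)
      hle).mp h0
  rw [← sub_eq_zero]
  refine adicCompletion_eq_zero_of_mul_eq_zero (algebraMap B (Localization.Away X) w)
    (fun m hm => (mul_eq_zero.mp hm).resolve_left hw') _ ?_
  rw [mul_sub]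
  exact sub_eq_zero.mpr h

/-- **the algebraic boundary ring** -/
noncomputable def bdBoundary [IsDomain B] (hP : (Ideal.span {w}).IsPrime)
    (hX : X ∉ Ideal.span {w}) (hw : w ≠ 0) : BoundaryRing w X (Bd w X) where
  dT := toBd w X
  complete := isAdicComplete_Bd w X
  isUnit_coord := isUnit_toBd_coord w X
  am := mem_span_of_toBd_eq_mul w X hP hX
  cancel := toBd_unif_mul_cancel w X hw fun h0 => hX (h0 ▸ Ideal.zero_mem _)

end Boundary

end Fermat.Agent.FF3.ExpandDisc
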