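/-
Programme I (S33, p-new half), contract D-B3 §4b (helper25): the interface that the target ring of
the disc expansion has to provide (Mathlib-only).

`DiscTarget W₀ B Ω w j` : `B` (intended: `W[[T]]`, `W` the completion of the constants `W₀`) with
constants `c : W₀ →+* B`, coordinate `X`, evaluations at the points of the open unit disc of the
ultrametric field `Ω`, bounded by one, compatible with `j : W₀ →+* Ω`; completeness for the ideal
`(c w, X)` in the weak pointwise form; the identity theorem in collar form.
-/
import Mathlib

set_option autoImplicit false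

namespace Fermat.Agent.FF3.ExpandDisc

/-! ### the target of the expansion -/

/-- What the target ring `B` of the disc expansion provides (`B = W[[T]]`): constants `c`, the
coordinate `X`, evaluations at the points of the open unit disc of `Ω`, completeness for the ideal
`(c w, X)` and the identity theorem in collar form. -/
structure DiscTarget (W₀ B Ω : Type*) [CommRing W₀] [CommRing B] [NormedField Ω] (w : W₀)
    (j : W₀ →+* Ω) where
  /-- the constants -/
  c : W₀ →+* B
  /-- the coordinate -/
  X : B
  /-- evaluation at a point of the open unit disc -/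
  evB : {z : Ω // ‖z‖ < 1} → B →+* Ω
  evB_c : ∀ z a, evB z (c a) = j a
  evB_X : ∀ z, evB z X = z.1
  evB_le : ∀ z b, ‖evB z b‖ ≤ 1
  /-- completeness for the ideal `(c w, X)`, in the weak (pointwise) form of helper5's `ExpData`
  (implied by `(c w, X)`-adic completeness: `FF3.Expand.tendsto_of_sub_mem_pow`) -/
  complete : ∀ f : ℕ → B, (∀ n, f (n + 1) - f n ∈ Ideal.span {c w, X} ^ n) →
    ∃ l : B, ∀ z, Filter.Tendsto (fun n => evB z (f n)) Filter.atTop (nhds (evB z l))
  /-- the identity theorem: a nonzero element has no zero in a collar `ρ < ‖z‖ < 1` -/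
  ident : ∀ b : B, b ≠ 0 →
    ∃ ρ : ℝ, ρ < 1 ∧ ∀ z : {z : Ω // ‖z‖ < 1}, ρ < ‖z.1‖ → evB z b ≠ 0

end Fermat.Agent.FF3.ExpandDisc
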