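/-
Programme I (S33, p-new half), contract D-B3 §4b / assembly node T3 (helper25): the DISC PART of the
expansion package of block B4 (`FF3/B4/Parts.lean`, helper22: `DiscPart C Adm x`) from a short list
of named hypotheses (`DiscDatum`), in the literal shapes of `FF3/ExpandDisc/{Level,Gauss,Pole,Loc}`
and of helper22's `FF3/B4/Taylor.lean` (`SideHyp` with `J = (ϖ)`, `X = T`).

* `ratHom` : the functions of a ring `R ⊆ F₀ ∩ S.O v`, as elements of the completed valuation ring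
  `C.Oh v` of the component part;
* `DiscDatum C Adm x` : the disc ring `Dk`, the boundary ring `ET`, `dT`, `bT`, the ring `R` of the
  functions of the level regular on the disc with its expansion `ex : R →+* Dk`, the commuting
  square `bT ∘ ratHom = dT ∘ ex`, the one-sided hypotheses of `Taylor.lean`, cancellation of `ϖ` in
  `ET`, and the POLE FUNCTIONS `G E' ∈ F₀` (`= ∏_{P ↦ x} (t - t(P)) ^ E'(P)`: a unit of the component,
  `L(E') ∩ S.O v ∩ F₀ ⊆ G(E')⁻¹ R`, `ord_x (res G(E')) = push E' x`);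
* `DiscDatum.toDiscPart` : the disc part, with `pole E' = bT (G E')`;
* `discPartOfIsBranch` : the (vacuous) disc part at a branch point.
-/
import Mathlib
import Fermat.Agent.FF3.B4.Parts
import Fermat.Agent.FF3.B4.Taylor

set_option autoImplicit false

namespace Fermat.Agent.FF3.ExpandDisc

open AlgebraicCurve Fermat.Agent.Red Fermat.Agent.BR.SS Fermat.Agent.FF3.B4

universe u₁ u₂ u₃ u₄ u₅ u₆ w

variable {K : Type u₁} {F : Type u₂} {k : Type u₃} [Field K] [Field F] [Algebra K F] [Field k]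
  {A : ValuationSubring K} {π : A →+* k} {ι : Type u₄} {Ft : ι → Type u₅}
  [∀ v, Field (Ft v)] [∀ v, Algebra k (Ft v)] {ν : Type u₆}
  {S : SemistableSetup (F := F) A π ι Ft ν} {F₀ : Subfield F} {ϖ : F₀}

/-! ### functions of a ring as elements of the completed valuation ring -/

/-- the functions of a ring `R ⊆ F₀ ∩ S.O v` as elements of the completed valuation ring of the
component `v` -/
def ratHom (C : CompPack.{u₁, u₂, u₃, u₄, u₅, u₆, w} S F₀ ϖ) (v : ι) (R : Subring F)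
    (h₀ : ∀ y ∈ R, y ∈ F₀) (hO : ∀ y ∈ R, y ∈ S.O v) : R →+* C.Oh v where
  toFun y := C.ofRatAt v ⟨y, h₀ y y.2⟩ (hO y y.2)
  map_one' := Subtype.ext (map_one (C.emb v))
  map_mul' a b := Subtype.ext (by
    show C.emb v _ = C.emb v ⟨a, h₀ a a.2⟩ * C.emb v ⟨b, h₀ b b.2⟩
    rw [← map_mul]
    rfl)
  map_zero' := Subtype.ext (map_zero (C.emb v))
  map_add' a b := Subtype.ext (by
    show C.emb v _ = C.emb v ⟨a, h₀ a a.2⟩ + C.emb v ⟨b, h₀ b b.2⟩
    rw [← map_add]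
    rfl)

theorem ratHom_apply (C : CompPack.{u₁, u₂, u₃, u₄, u₅, u₆, w} S F₀ ϖ) (v : ι) (R : Subring F)
    (h₀ : ∀ y ∈ R, y ∈ F₀) (hO : ∀ y ∈ R, y ∈ S.O v) (y : R) :
    ratHom C v R h₀ hO y = C.ofRatAt v ⟨y, h₀ y y.2⟩ (hO y y.2) := rfl

theorem resh_ratHom (C : CompPack.{u₁, u₂, u₃, u₄, u₅, u₆, w} S F₀ ϖ) (v : ι) (R : Subring F)
    (h₀ : ∀ y ∈ R, y ∈ F₀) (hO : ∀ y ∈ R, y ∈ S.O v) (y : R) :
    C.resh v (ratHom C v R h₀ hO y) = S.res v ⟨y, hO y y.2⟩ :=
  C.resh_emb v ⟨y, h₀ y y.2⟩ (hO y y.2)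

theorem ofRatAt_mul (C : CompPack.{u₁, u₂, u₃, u₄, u₅, u₆, w} S F₀ ϖ) (v : ι) (g h : F₀)
    (hg : (g : F) ∈ S.O v) (hh : (h : F) ∈ S.O v) :
    C.ofRatAt v (g * h) ((S.O v).mul_mem _ _ hg hh) = C.ofRatAt v g hg * C.ofRatAt v h hh :=
  Subtype.ext (map_mul (C.emb v) g h)

theorem resh_ofRatAt (C : CompPack.{u₁, u₂, u₃, u₄, u₅, u₆, w} S F₀ ϖ) (v : ι) (g : F₀)
    (hg : (g : F) ∈ S.O v) : C.resh v (C.ofRatAt v g hg) = S.res v ⟨g, hg⟩ :=
  C.resh_emb v g hg

theorem resh_unif (C : CompPack.{u₁, u₂, u₃, u₄, u₅, u₆, w} S F₀ ϖ) (v : ι)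
    (hϖ : ((ϖ : F₀) : F) ∈ (S.O v).nonunits) : C.resh v (C.unif v) = 0 := by
  have h1 : C.resh v (C.unif v) = S.res v ⟨ϖ, C.unif_mem v⟩ := C.resh_emb v ϖ (C.unif_mem v)
  rw [h1, S.res_eq_zero_iff]
  obtain ⟨ha, hm⟩ := (S.O v).mem_nonunits_iff_exists_mem_maximalIdeal.mp hϖ
  exact (IsLocalRing.mem_maximalIdeal _).mp hm

/-! ### the datum -/

/-- **The data of the disc part at the closed point `x`.** -/
structure DiscDatum (C : CompPack.{u₁, u₂, u₃, u₄, u₅, u₆, w} S F₀ ϖ)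
    (Adm : Divisor K F → Prop) (x : Σ v, Place k (Ft v)) where
  /-- the disc ring -/
  Dk : Type w
  [instDk : CommRing Dk]
  /-- the boundary ring -/
  ET : Type w
  [instET : CommRing ET]
  dT : Dk →+* ET
  bT : C.Oh x.1 →+* ET
  /-- the functions of the level which are regular on the disc -/
  R : Subring F
  R_le_level : ∀ y ∈ R, y ∈ F₀
  R_le : ∀ y ∈ R, y ∈ S.O x.1
  /-- the expansion -/
  ex : R →+* Dk
  /-- the uniformizer of the disc ring -/
  ϖD : Dk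
  /-- the coordinate of the disc ring -/
  TD : Dk
  comm : ∀ ρ : R, bT (ratHom C x.1 R R_le_level R_le ρ) = dT (ex ρ)
  dT_unif : dT ϖD = bT (C.unif x.1)
  side : SideHyp x.2 (C.resh x.1) (C.unif x.1) (ratHom C x.1 R R_le_level R_le) ex dT bT
    (Ideal.span {ϖD}) TD
  dens1 : ∀ y : C.Oh x.1, ∃ α σ : R, C.resh x.1 (ratHom C x.1 R R_le_level R_le σ) ≠ 0 ∧
    ∃ y' : C.Oh x.1, y * ratHom C x.1 R R_le_level R_le σ =
      ratHom C x.1 R R_le_level R_le α + C.unif x.1 * y'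
  dens2 : ∀ (g : Dk) (N : ℕ), ∃ (ρ : R) (g' : Dk), g - ex ρ - TD ^ N * g' ∈ Ideal.span {ϖD}
  reg : ∀ ρ : R, x.2.adicValuation (C.resh x.1 (ratHom C x.1 R R_le_level R_le ρ)) ≤ 1
  /-- the uniformizer is not a zero divisor of the boundary ring -/
  cancel : ∀ z z' : ET, dT ϖD * z = dT ϖD * z' → z = z'
  /-- the pole functions `∏_{P ↦ x} (t - t(P)) ^ E'(P)` -/
  G : Divisor K F → F₀
  G_mem : ∀ E', ((G E' : F₀) : F) ∈ S.O x.1
  G_mono : ∀ {E' E'' : Divisor K F}, Adm E' → Adm E'' → E' ≤ E'' →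
    ∃ ρ : R, ((G E'' : F₀) : F) = ((G E' : F₀) : F) * (ρ : F)
  G_rat : ∀ E', Adm E' → ∀ h : F₀, (h : F) ∈ S.O x.1 → (h : F) ∈ riemannRochSpace E' →
    (h : F) * ((G E' : F₀) : F) ∈ R
  G_res : ∀ E', Adm E' → S.res x.1 ⟨G E', G_mem E'⟩ ≠ 0
  G_ord : ∀ E', Adm E' → x.2.ord (S.res x.1 ⟨G E', G_mem E'⟩) = S.push E' x.1 x.2

attribute [instance] DiscDatum.instDk DiscDatum.instET

namespace DiscDatum

variable {C : CompPack.{u₁, u₂, u₃, u₄, u₅, u₆, w} S F₀ ϖ} {Adm : Divisor K F → Prop}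
  {x : Σ v, Place k (Ft v)} (X : DiscDatum C Adm x)

/-- the functions of the level as elements of the completed valuation ring -/
def ℓ : X.R →+* C.Oh x.1 := ratHom C x.1 X.R X.R_le_level X.R_le

/-- the pole factor -/
def pole (E' : Divisor K F) : X.ET := X.bT (C.ofRatAt x.1 (X.G E') (X.G_mem E'))

theorem pole_mono {E' E'' : Divisor K F} (h' : Adm E') (h'' : Adm E'') (h : E' ≤ E'') :
    ∃ p : X.Dk, X.pole E'' = X.pole E' * X.dT p := by
  obtain ⟨ρ, hρ⟩ := X.G_mono h' h'' h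
  refine ⟨X.ex ρ, ?_⟩
  rw [← X.comm ρ, pole, pole, ← map_mul]
  congr 1
  apply Subtype.ext
  show C.emb x.1 (X.G E'') = C.emb x.1 (X.G E') * C.emb x.1 ⟨ρ, X.R_le_level ρ ρ.2⟩
  rw [← map_mul]
  congr 1
  exact Subtype.ext hρ

theorem disc_rat (E' : Divisor K F) (h' : Adm E') (h : F₀) (hO : (h : F) ∈ S.O x.1)
    (hL : (h : F) ∈ riemannRochSpace E') :
    ∃ t : X.Dk, X.dT t = X.bT (C.ofRatAt x.1 h hO) * X.pole E' := by
  have hR := X.G_rat E' h' h hO hL
  refine ⟨X.ex ⟨_, hR⟩, ?_⟩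
  rw [← X.comm, pole, ← map_mul]
  congr 1
  apply Subtype.ext
  show C.emb x.1 _ = C.emb x.1 h * C.emb x.1 (X.G E')
  rw [← map_mul]
  congr 1

theorem disc_red (E' : Divisor K F) (h' : Adm E') (y : C.Oh x.1) (t : X.Dk)
    (ht : X.dT t = X.bT y * X.pole E') :
    C.resh x.1 y = 0 ∨ -(S.push E' x.1 x.2) ≤ x.2.ord (C.resh x.1 y) := by
  rw [pole, ← map_mul] at ht
  have h1 := X.side.adicValuation_le_one_of_expand X.dens1 X.dens2 X.reg ht
  rw [map_mul, resh_ofRatAt, Place.adicValuation_le_one_iff] at h1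
  by_cases hy : C.resh x.1 y = 0
  · exact Or.inl hy
  right
  rcases h1 with h1 | h1
  · rcases mul_eq_zero.mp h1 with h2 | h2
    · exact absurd h2 hy
    · exact absurd h2 (X.G_res E' h')
  · rw [Place.ord_mul _ hy (X.G_res E' h'), X.G_ord E' h'] at h1
    linarith

theorem disc_div (E' : Divisor K F) (y : C.Oh x.1) (t : X.Dk)
    (ht : X.dT t = X.bT (C.unif x.1 * y) * X.pole E') :
    ∃ t' : X.Dk, X.dT t' = X.bT y * X.pole E' := by
  rw [pole, ← map_mul, mul_assoc, map_mul] at ht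
  have h1 : t ∈ Ideal.span {X.ϖD} := X.side.am t ⟨_, ht⟩
  obtain ⟨t', rfl⟩ := Ideal.mem_span_singleton.mp h1
  refine ⟨t', X.cancel _ _ ?_⟩
  rw [← map_mul, ht, X.dT_unif, pole, map_mul]

/-- **`hfac`** (the input of helper22's `ExpPack.mem_sec_neg_of_roots`): if `f G(E') ^ n` is a unit
of the ring `R` of the level, its expansion is a unit of the disc ring with boundary value
`bT f * pole E' ^ n` -/
theorem fac (E' : Divisor K F) (n : ℕ) {f : F₀} (hfO : (f : F) ∈ S.O x.1) {z z' : X.R}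
    (hz : z * z' = 1) (hzf : (z : F) = (f : F) * ((X.G E' : F₀) : F) ^ n) :
    ∃ g : X.Dk, IsUnit g ∧ X.dT g = X.bT (C.ofRatAt x.1 f hfO) * X.pole E' ^ n := by
  refine ⟨X.ex z, (IsUnit.of_mul_eq_one z' hz).map X.ex, ?_⟩
  rw [← X.comm, pole, ← map_pow, ← map_mul]
  congr 1
  apply Subtype.ext
  show C.emb x.1 _ = C.emb x.1 f * (C.emb x.1 (X.G E')) ^ n
  rw [← map_pow, ← map_mul]
  congr 1
  exact Subtype.ext hzf

/-- **The disc part of the expansion package from a disc datum.** -/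
def toDiscPart : DiscPart.{u₁, u₂, u₃, u₄, u₅, u₆, w} C Adm x where
  Dk := X.Dk
  ET := X.ET
  dT := X.dT
  bT := X.bT
  pole := X.pole
  pole_mono h' h'' h _ := X.pole_mono h' h'' h
  disc_rat E' h' _ h hO hL := X.disc_rat E' h' h hO hL
  disc_red E' h' _ y t ht := X.disc_red E' h' y t ht
  disc_div E' _ _ y t ht := X.disc_div E' y t ht

end DiscDatum

/-! ### branch points -/

/-- the (vacuous) disc part at a branch point -/
def discPartOfIsBranch (C : CompPack.{u₁, u₂, u₃, u₄, u₅, u₆, w} S F₀ ϖ)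
    (Adm : Divisor K F → Prop) (x : Σ v, Place k (Ft v)) (hx : S.IsBranch x) :
    DiscPart.{u₁, u₂, u₃, u₄, u₅, u₆, w} C Adm x where
  Dk := PUnit
  ET := PUnit
  dT := RingHom.id _
  bT :=
    { toFun := fun _ => PUnit.unit
      map_one' := rfl
      map_mul' := fun _ _ => rfl
      map_zero' := rfl
      map_add' := fun _ _ => rfl }
  pole _ := PUnit.unit
  pole_mono _ _ _ h := absurd hx h
  disc_rat _ _ h := absurd hx h
  disc_red _ _ h := absurd hx h
  disc_div _ _ h := absurd hx h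

end Fermat.Agent.FF3.ExpandDisc
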