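/-
Programme I (S33, p-new half), contract D-B3 §4b / assembly node T3 (helper25): the disc datum
(`Part.lean`: `DiscDatum C Adm x`, hence helper22's `B4.DiscPart C Adm x`) of a LEVEL of a smooth
family at the closed point `x = ⟨v, Q⟩`.

Inputs (all named, in the literal shapes of the files they come from):
* `H : SmoothFamily A (S.O v) (S.res v) Q T t R ϖ'`, `hT` (`T` is the tube of `x`), `hord`
  (`ord_Q (res t) = 1`), a level `i` with `R i ⊆ F₀ = Frac (R i)`, `ϖ = ϖ' i`;
* the target `D : DiscTarget (constRing (R i)) B Ω (unif L) _` with `hcollar`, the Gauss clause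
  hypotheses `hB`, `hX` (`Gauss.lean`) and density of the polynomials with constants of the level
  modulo `(ϖ, X ^ N)` (`hBdens`);
* the boundary ring `ET` with `dT`, `bT`, the commuting square `comm`, (AM) `ham`, cancellation
  `hcancel`;
* density of the level in the completed valuation ring modulo `ϖ` (`hdensC`);
* `hAdm` : the points of an admissible divisor in the tube are rational over the level.
-/
import Mathlib
import Fermat.Agent.FF3.ExpandDisc.Part
import Fermat.Agent.FF3.ExpandDisc.PartPole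
import Fermat.Agent.FF3.ExpandDisc.Gauss

set_option autoImplicit false

namespace Fermat.Agent.FF3.ExpandDisc

open AlgebraicCurve Fermat.Agent.Red Fermat.Agent.X0 Fermat.Agent.BR Fermat.Agent.BR.SS
  Fermat.Agent.BR.S0 Fermat.Agent.FF3.B4

universe u₁ u₂ u₃ u₄ u₅ u₆ w

variable {K : Type u₁} {F : Type u₂} {k : Type u₃} [Field K] [Field F] [Algebra K F] [Field k]
  {A : ValuationSubring K} {π : A →+* k} {ι : Type u₄} {Ft : ι → Type u₅}
  [∀ v, Field (Ft v)] [∀ v, Algebra k (Ft v)] {ν : Type u₆}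
  {S : SemistableSetup (F := F) A π ι Ft ν} {F₀ : Subfield F} {ϖ : F₀}

section

variable (C : CompPack.{u₁, u₂, u₃, u₄, u₅, u₆, w} S F₀ ϖ)
  {x : Σ v, Place k (Ft v)} {T : Set (Place K F)} {t : F} {ι' : Type*}
  {R : ι' → Subring F} {ϖ' : ι' → K}
  (H : SmoothFamily A (S.O x.1) (S.res x.1) x.2 T t R ϖ')
  (hT : ∀ P, P ∈ T ↔ S.r P = x)
  (hord : ∀ h : t ∈ S.O x.1, x.2.ord (S.res x.1 ⟨t, h⟩) = 1)
  (i : ι') (hRF : ∀ y ∈ R i, y ∈ F₀) (hfrac : ∀ h : F₀, IsFrac (R i) (h : F))
  (hϖ : ((ϖ : F₀) : F) = algebraMap K F (ϖ' i))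
  {Ω : Type*} [NormedField Ω] [IsUltrametricDist Ω] (j : K →+* Ω)
  (hj : ∀ a : K, a ∈ A → ‖j a‖ ≤ 1) (hj' : ∀ a : K, A.valuation a < 1 → ‖j a‖ < 1)
  {B : Type w} [CommRing B]
  (D : DiscTarget (constRing (K := K) (R i)) B Ω (unif (H.level i))
    (j.comp (constRing (R i)).subtype))
  (hcollar : ∀ ρ : ℝ, ρ < 1 → ∃ P : T, ρ < ‖j (evalAt P.1 t)‖)

/-- the functions of the level in the completed valuation ring -/
noncomputable abbrev lvl : R i →+* C.Oh x.1 := ratHom C x.1 (R i) hRF (H.level i).le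

include hϖ in
theorem lvl_unif : lvl C H i hRF (constHom (R i) (unif (H.level i))) = C.unif x.1 := by
  apply Subtype.ext
  show C.emb x.1 _ = C.emb x.1 ϖ
  congr 1
  exact Subtype.ext hϖ.symm

include H hϖ in
theorem unif_mem_nonunits : ((ϖ : F₀) : F) ∈ (S.O x.1).nonunits := by
  rw [hϖ]
  exact setup_hAO S x.1 _ (H.level i).unif_lt

theorem resh_lvl (ρ : R i) :
    C.resh x.1 (lvl C H i hRF ρ) = S.res x.1 ⟨ρ, (H.level i).le ρ ρ.2⟩ :=
  resh_ratHom C x.1 (R i) hRF (H.level i).le ρ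

theorem not_dvd_of_resh_ne_zero {ρ : R i} (h : C.resh x.1 (lvl C H i hRF ρ) ≠ 0) :
    ¬ constHom (R i) (unif (H.level i)) ∣ ρ := by
  intro hdvd
  apply h
  rw [resh_lvl]
  exact setup_hker S x.1 _
    ((mem_nonunits_iff_unif_dvd (H.level i) (setup_hAO S x.1) ρ).mpr hdvd)

theorem resh_ne_zero_of_not_dvd {ρ : R i} (h : ¬ constHom (R i) (unif (H.level i)) ∣ ρ) :
    C.resh x.1 (lvl C H i hRF ρ) ≠ 0 := by
  intro h0
  apply h
  rw [resh_lvl] at h0
  refine (mem_nonunits_iff_unif_dvd (H.level i) (setup_hAO S x.1) ρ).mp ?_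
  have h1 : S.resF x.1 (ρ : F) = 0 := by
    rw [S.resF_of_mem ((H.level i).le ρ ρ.2)]
    exact h0
  exact (S.resF_eq_zero_iff ((H.level i).le ρ ρ.2)).mp h1

/-- the expansion of a unit is not in `(ϖ, X)` -/
theorem discExpand_unit_sub_notMem {s : R i} (hs : IsUnit s) (g : B) :
    discExpand (H.level i) j hj hj' D hcollar s - D.X * g ∉
      Ideal.span {D.c (unif (H.level i))} := by
  intro hmem
  obtain ⟨h, hh⟩ := Ideal.mem_span_singleton'.mp hmem
  set z0 : {z : Ω // ‖z‖ < 1} := ⟨0, by rw [norm_zero]; exact one_pos⟩ with hz0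
  obtain ⟨u, hu⟩ := isUnit_iff_exists_inv.mp (hs.map (discExpand (H.level i) j hj hj' D hcollar))
  have h1 := congrArg (D.evB z0) hh
  rw [map_mul, D.evB_c, map_sub, map_mul, D.evB_X, zero_mul, sub_zero] at h1
  have h2 := congrArg (D.evB z0) hu
  rw [map_mul, map_one] at h2
  have h3 : ‖D.evB z0 (discExpand (H.level i) j hj hj' D hcollar s)‖ < 1 := by
    rw [← h1, norm_mul]
    have h4 : ‖(j.comp (constRing (R i)).subtype) (unif (H.level i))‖ < 1 :=
      hj' _ (H.level i).unif_lt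
    calc ‖D.evB z0 h‖ * ‖(j.comp (constRing (R i)).subtype) (unif (H.level i))‖
        ≤ 1 * ‖(j.comp (constRing (R i)).subtype) (unif (H.level i))‖ :=
          mul_le_mul_of_nonneg_right (D.evB_le _ _) (norm_nonneg _)
      _ < 1 := by rw [one_mul]; exact h4
  have h5 := congrArg norm h2
  rw [norm_mul, norm_one] at h5
  have h6 : ‖D.evB z0 (discExpand (H.level i) j hj hj' D hcollar s)‖ * ‖D.evB z0 u‖ < 1 :=
    mul_lt_one_of_nonneg_of_lt_one_left (norm_nonneg _) h3 (D.evB_le _ _)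
  rw [h5] at h6
  exact lt_irrefl _ h6

variable (hB : (Ideal.span {D.c (unif (H.level i))}).IsPrime)
  (hX : D.X ∉ Ideal.span {D.c (unif (H.level i))})
  (hBdens : ∀ (g : B) (N : ℕ), ∃ (a : ℕ → constRing (K := K) (R i)) (g' : B),
    g - ∑ n ∈ Finset.range N, D.c (a n) * D.X ^ n - D.X ^ N * g' ∈
      Ideal.span {D.c (unif (H.level i))})
  {ET : Type w} [CommRing ET] (dT : B →+* ET) (bT : C.Oh x.1 →+* ET)
  (comm : ∀ ρ : R i, bT (lvl C H i hRF ρ) = dT (discExpand (H.level i) j hj hj' D hcollar ρ))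
  (ham : ∀ g : B, (∃ z : ET, dT g = dT (D.c (unif (H.level i))) * z) →
    g ∈ Ideal.span {D.c (unif (H.level i))})
  (hcancel : ∀ z z' : ET,
    dT (D.c (unif (H.level i))) * z = dT (D.c (unif (H.level i))) * z' → z = z')
  (hdensC : ∀ y : C.Oh x.1, ∃ (h : F₀) (hO : (h : F) ∈ S.O x.1) (y' : C.Oh x.1),
    y = C.ofRatAt x.1 h hO + C.unif x.1 * y')

include hϖ comm in
theorem dT_unif : dT (D.c (unif (H.level i))) = bT (C.unif x.1) := by
  rw [← lvl_unif C H i hRF hϖ, comm, discExpand_const]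

include hϖ hord hB hX comm ham in
/-- the one-sided hypotheses of `B4/Taylor.lean` at a level -/
theorem sideHyp :
    SideHyp x.2 (C.resh x.1) (C.unif x.1) (lvl C H i hRF)
      (discExpand (H.level i) j hj hj' D hcollar) dT bT
      (Ideal.span {D.c (unif (H.level i))}) D.X where
  resh_unif := resh_unif C x.1 (unif_mem_nonunits H i hϖ)
  comm := comm
  prime := hB
  X_notMem := hX
  am := by
    intro g ⟨z, hz⟩
    refine ham g ⟨z, ?_⟩
    rw [hz, dT_unif C H i hRF hϖ j hj hj' D hcollar dT bT comm]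
  taylor := by
    intro ρ hρ
    have hnd := not_dvd_of_resh_ne_zero C H i hRF hρ
    obtain ⟨n, s, hs, hys⟩ := exists_pow_mul_sub_mem_span (H.level i) hnd
    refine ⟨n, s, hs, ?_, (discExpand_sub_mem (H.level i) j hj hj' D hcollar hs hys).2⟩
    rw [resh_lvl]
    exact ord_res_eq (H.level i) (setup_hres S x.1) (setup_hker S x.1) (setup_hAO S x.1)
      (hord _) hs hys
  unit := fun s hs g => discExpand_unit_sub_notMem H i j hj hj' D hcollar hs g

include hfrac hdensC in
theorem dens1 (y : C.Oh x.1) :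
    ∃ α σ : R i, C.resh x.1 (lvl C H i hRF σ) ≠ 0 ∧
      ∃ y' : C.Oh x.1, y * lvl C H i hRF σ = lvl C H i hRF α + C.unif x.1 * y' := by
  obtain ⟨h, hO, y', rfl⟩ := hdensC y
  obtain ⟨a, b, hb, hab⟩ := hfrac h
  obtain ⟨a', s, hs, has⟩ := exists_mul_mem_of_mem (H.level i) (setup_hAO S x.1) hb hab hO
  refine ⟨a', s, resh_ne_zero_of_not_dvd C H i hRF hs, y' * lvl C H i hRF s, ?_⟩
  have e : C.ofRatAt x.1 h hO * lvl C H i hRF s = lvl C H i hRF a' := by
    apply Subtype.ext
    show C.emb x.1 h * C.emb x.1 ⟨s, hRF s s.2⟩ = C.emb x.1 ⟨a', hRF a' a'.2⟩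
    rw [← map_mul]
    congr 1
    exact Subtype.ext has
  rw [add_mul, e]
  ring

include hBdens in
theorem dens2 (g : B) (N : ℕ) :
    ∃ (ρ : R i) (g' : B), g - discExpand (H.level i) j hj hj' D hcollar ρ - D.X ^ N * g' ∈
      Ideal.span {D.c (unif (H.level i))} := by
  obtain ⟨a, g', hg⟩ := hBdens g N
  refine ⟨∑ n ∈ Finset.range N, constHom (R i) (a n) * coord (H.level i) ^ n, g', ?_⟩
  rw [map_sum]
  have e : ∀ n ∈ Finset.range N,
      discExpand (H.level i) j hj hj' D hcollar (constHom (R i) (a n) * coord (H.level i) ^ n) =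
        D.c (a n) * D.X ^ n := by
    intro n _
    rw [map_mul, map_pow, discExpand_const, discExpand_coord]
  rw [Finset.sum_congr rfl e]
  exact hg

theorem reg (ρ : R i) : x.2.adicValuation (C.resh x.1 (lvl C H i hRF ρ)) ≤ 1 := by
  rw [resh_lvl]
  exact adicValuation_res_le_one (H.level i) (setup_hres S x.1) ρ

open Classical in
/-- the pole function, as a function of the level (`1` if it is not in the level) -/
noncomputable def poleG (S : SemistableSetup (F := F) A π ι Ft ν) (F₀ : Subfield F)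
    (x : Σ v, Place k (Ft v)) (t : F) (E' : Divisor K F) : F₀ :=
  if h : poleFun S x t E' ∈ F₀ then ⟨poleFun S x t E', h⟩ else 1

include H hRF in
theorem poleFun_mem_level {E' : Divisor K F} (hE : RatOver S x t (R i) E') :
    poleFun S x t E' ∈ F₀ := by
  classical
  unfold poleFun
  refine Subfield.prod_mem _ fun P hP => Subfield.zpow_mem _ (hRF _ ?_) _
  rw [Finset.mem_filter] at hP
  exact factor_mem H hE hP.1 hP.2

include H hRF in
theorem coe_poleG {E' : Divisor K F} (hE : RatOver S x t (R i) E') :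
    ((poleG S F₀ x t E' : F₀) : F) = poleFun S x t E' := by
  unfold poleG
  rw [dif_pos (poleFun_mem_level H i hRF hE)]

include H hT hord in
theorem poleG_mem (E' : Divisor K F) : ((poleG S F₀ x t E' : F₀) : F) ∈ S.O x.1 := by
  unfold poleG
  split_ifs with h
  · exact poleFun_mem_O H hT hord E'
  · exact (S.O x.1).one_mem

variable (Adm : Divisor K F → Prop) (hAdm : ∀ E', Adm E' → RatOver S x t (R i) E')

include hT hord hfrac hϖ hB hX hBdens comm ham hcancel hdensC hAdm in
/-- **The disc datum of a level.** -/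
noncomputable def discDatum : DiscDatum.{u₁, u₂, u₃, u₄, u₅, u₆, w} C Adm x where
  Dk := B
  ET := ET
  dT := dT
  bT := bT
  R := R i
  R_le_level := hRF
  R_le := (H.level i).le
  ex := discExpand (H.level i) j hj hj' D hcollar
  ϖD := D.c (unif (H.level i))
  TD := D.X
  comm := comm
  dT_unif := dT_unif C H i hRF hϖ j hj hj' D hcollar dT bT comm
  side := sideHyp C H hord i hRF hϖ j hj hj' D hcollar hB hX dT bT comm ham
  dens1 := dens1 C H i hRF hfrac hdensC
  dens2 := dens2 H i j hj hj' D hcollar hBdens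
  reg := reg C H i hRF
  cancel := hcancel
  G := poleG S F₀ x t
  G_mem := poleG_mem H hT hord
  G_mono := by
    intro E' E'' h' h'' hle
    obtain ⟨ρ, hρ⟩ := exists_poleFun_eq_mul H hT hord (hAdm E' h') (hAdm E'' h'') hle
    exact ⟨ρ, by rw [coe_poleG H i hRF (hAdm E' h'), coe_poleG H i hRF (hAdm E'' h''), hρ]⟩
  G_rat := by
    intro E' h' h hO hL
    rw [coe_poleG H i hRF (hAdm E' h')]
    exact mul_poleFun_mem H hT hord (hAdm E' h') (hfrac h) hO hL
  G_res := by
    intro E' h'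
    have h1 := resF_poleFun_ne_zero H hT hord E'
    rw [← coe_poleG H i hRF (hAdm E' h'), S.resF_of_mem (poleG_mem H hT hord E')] at h1
    exact h1
  G_ord := by
    intro E' h'
    have h1 := ord_resF_poleFun H hT hord E'
    rw [← coe_poleG H i hRF (hAdm E' h'), S.resF_of_mem (poleG_mem H hT hord E')] at h1
    exact h1

include hT hord hfrac hϖ hB hX hBdens comm ham hcancel hdensC hAdm in
/-- **`hfac`** for the disc datum of a level (input of helper22's `ExpPack.mem_sec_neg_of_roots`):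
for a unit `f` of the component, in the level, whose divisor on the tube is `n • D₀`. -/
theorem discDatum_fac {D₀ : Divisor K F} (hadm : Adm (-D₀)) {f : F₀} (hfO : (f : F) ∈ S.O x.1)
    (hfu : (S.O x.1).valuation (f : F) = 1) (n : ℕ)
    (hdiv : ∀ P ∈ T, P.ord (f : F) = n * D₀ P) :
    let X := discDatum C H hT hord i hRF hfrac hϖ j hj hj' D hcollar hB hX hBdens dT bT comm ham
      hcancel hdensC Adm hAdm
    ∃ g : X.Dk, IsUnit g ∧ X.dT g = X.bT (C.ofRatAt x.1 f hfO) * X.pole (-D₀) ^ n := by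
  intro X
  obtain ⟨z, z', hz, hzf⟩ := exists_unit_eq_mul_poleFun_pow H hT hord (hAdm _ hadm) (hfrac f) hfu n
    hdiv
  refine X.fac (-D₀) n hfO hz ?_
  rw [hzf]
  show _ = _ * ((poleG S F₀ x t (-D₀) : F₀) : F) ^ n
  rw [coe_poleG H i hRF (hAdm _ hadm)]

end

end Fermat.Agent.FF3.ExpandDisc
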