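/-
Programme I (S33, p-new half), contract D-B3 §4b / assembly node T3 (helper25): the DISC PART
`B4.DiscPart (CompPack.ofDatum S Dd hO hw) Adm x` of a level of a smooth family, for the component
part built from helper16's DV-completion package (`FF3/B4/CompInst.lean`, helper22) and the purely
boundary ring `bd : BoundaryRing (c ϖ) X E` of `Boundary.lean` (abstract; `discPartOfDatumBd` : with
the purely algebraic one `E = (B[1/X])^`).

The boundary map `bT : Oh v →+* Bd` is `DVCompl.Datum.lift` of the Gauss lift (`Loc.lean`) of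
`toBd ∘ discExpand`; the commuting square and the density of the level in `Oh v` modulo `ϖ` come with
it.  What is left as hypotheses: the family `H` with `hT`, `hord`; a level `i` with
`R i ⊆ F₀ = Frac (R i)`, `ϖ = ϖ' i`; the target `D : DiscTarget ..` over a domain `B` with `hcollar`,
`hB`, `hX`, `hBdens`; `hAdm`.
-/
import Mathlib
import Fermat.Agent.FF3.B4.CompInst
import Fermat.Agent.FF3.ExpandDisc.PartLevel
import Fermat.Agent.FF3.ExpandDisc.Boundary
import Fermat.Agent.FF3.ExpandDisc.Loc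

set_option autoImplicit false

namespace Fermat.Agent.FF3.ExpandDisc

open AlgebraicCurve Fermat.Agent.Red Fermat.Agent.X0 Fermat.Agent.BR Fermat.Agent.BR.SS
  Fermat.Agent.BR.S0 Fermat.Agent.FF3.B4 Fermat.Agent.FF3.DVCompl

universe u₁ u₂ u₃ u₄ u₅ u₆

variable {K : Type u₁} {F : Type u₂} {k : Type u₃} [Field K] [Field F] [Algebra K F] [Field k]
  {A : ValuationSubring K} {π : A →+* k} {ι : Type u₄} {Ft : ι → Type u₅}
  [∀ v, Field (Ft v)] [∀ v, Algebra k (Ft v)] {ν : Type u₆}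
  {S : SemistableSetup (F := F) A π ι Ft ν} {F₀ : Subfield F} {ϖ : F₀}

section

variable (Dd : ι → Datum F₀) (hO : ∀ v (y : F₀), y ∈ (Dd v).O₀ ↔ (y : F) ∈ S.O v)
  (hw : ∀ v, (Dd v).w = ϖ)
  {x : Σ v, Place k (Ft v)} {T : Set (Place K F)} {t : F} {ι' : Type*}
  {R : ι' → Subring F} {ϖ' : ι' → K}
  (H : SmoothFamily A (S.O x.1) (S.res x.1) x.2 T t R ϖ')
  (hT : ∀ P, P ∈ T ↔ S.r P = x)
  (hord : ∀ h : t ∈ S.O x.1, x.2.ord (S.res x.1 ⟨t, h⟩) = 1)
  (i : ι') (hRF : ∀ y ∈ R i, y ∈ F₀) (hfrac : ∀ h : F₀, IsFrac (R i) (h : F))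
  (hϖ : ((ϖ : F₀) : F) = algebraMap K F (ϖ' i))
  {Ω : Type*} [NormedField Ω] [IsUltrametricDist Ω] (j : K →+* Ω)
  (hj : ∀ a : K, a ∈ A → ‖j a‖ ≤ 1) (hj' : ∀ a : K, A.valuation a < 1 → ‖j a‖ < 1)
  {B : Type u₂} [CommRing B]
  (D : DiscTarget (constRing (K := K) (R i)) B Ω (unif (H.level i))
    (j.comp (constRing (R i)).subtype))
  (hcollar : ∀ ρ : ℝ, ρ < 1 → ∃ P : T, ρ < ‖j (evalAt P.1 t)‖)
  {E : Type u₂} [CommRing E] (bd : BoundaryRing (D.c (unif (H.level i))) D.X E)

/-- the expansion followed by the map to the boundary ring -/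
noncomputable def bdExpand : R i →+* E :=
  bd.dT.comp (discExpand (H.level i) j hj hj' D hcollar)

theorem isUnit_bdExpand {s : R i} (hs : ¬ constHom (R i) (unif (H.level i)) ∣ s) :
    IsUnit (bdExpand H i j hj hj' D hcollar bd s) := by
  obtain ⟨n, s', hs', hys⟩ := exists_pow_mul_sub_mem_span (H.level i) hs
  obtain ⟨hu, hmem⟩ := discExpand_sub_mem (H.level i) j hj hj' D hcollar hs' hys
  have h1 := bd.isUnit_of_sub_mem hu hmem
  exact h1

/-- the functions of the level integral on the component, in the Gauss ring of the level -/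
def toGaussRing : (Dd x.1).O₀ →+* gaussRing (H.level i) where
  toFun y := ⟨((y : F₀) : F), ⟨(hO x.1 y).1 y.2, hfrac y⟩⟩
  map_one' := rfl
  map_mul' _ _ := rfl
  map_zero' := rfl
  map_add' _ _ := rfl

/-- the boundary map on the functions of the level integral on the component -/
noncomputable def bdRat : (Dd x.1).O₀ →+* E :=
  (gaussLift (H.level i) (setup_hAO S x.1) (bdExpand H i j hj hj' D hcollar bd)
    fun _ hs => isUnit_bdExpand H i j hj hj' D hcollar bd hs).comp (toGaussRing Dd hO H i hfrac)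

theorem bdRat_of_mem (ρ : R i) (h : (⟨ρ, hRF ρ ρ.2⟩ : F₀) ∈ (Dd x.1).O₀) :
    bdRat Dd hO H i hfrac j hj hj' D hcollar bd ⟨⟨ρ, hRF ρ ρ.2⟩, h⟩ =
      bd.dT (discExpand (H.level i) j hj hj' D hcollar ρ) := by
  have e : toGaussRing Dd hO H i hfrac ⟨⟨ρ, hRF ρ ρ.2⟩, h⟩ = toGauss (H.level i) ρ :=
    Subtype.ext rfl
  unfold bdRat
  rw [RingHom.comp_apply, e, gaussLift_toGauss]
  rfl

include hw hϖ hRF in
theorem bdRat_w₀ :
    bdRat Dd hO H i hfrac j hj hj' D hcollar bd (Dd x.1).w₀ =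
      bd.dT (D.c (unif (H.level i))) := by
  have hmem : (⟨(constHom (R i) (unif (H.level i)) : R i), hRF _ (constHom (R i) _).2⟩ : F₀) ∈
      (Dd x.1).O₀ := by
    rw [hO]
    exact (H.level i).le _ (constHom (R i) (unif (H.level i))).2
  have e : (Dd x.1).w₀ = ⟨⟨(constHom (R i) (unif (H.level i)) : R i), hRF _ (constHom (R i) _).2⟩,
      hmem⟩ := by
    apply Subtype.ext
    apply Subtype.ext
    show (((Dd x.1).w : F₀) : F) = algebraMap K F (ϖ' i)
    rw [hw, hϖ]
  rw [e, bdRat_of_mem Dd hO H i hRF hfrac j hj hj' D hcollar bd _ hmem, discExpand_const]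

include hw hϖ hRF in
theorem isAdicComplete_bdRat :
    IsAdicComplete (Ideal.span {bdRat Dd hO H i hfrac j hj hj' D hcollar bd (Dd x.1).w₀})
      E := by
  rw [bdRat_w₀ Dd hO hw H i hRF hfrac hϖ j hj hj' D hcollar bd]
  exact bd.complete

/-- **the boundary map** -/
noncomputable def bdMap : (Dd x.1).Oh →+* E :=
  (Dd x.1).lift (bdRat Dd hO H i hfrac j hj hj' D hcollar bd)
    (isAdicComplete_bdRat Dd hO hw H i hRF hfrac hϖ j hj hj' D hcollar bd)

variable (hB : (Ideal.span {D.c (unif (H.level i))}).IsPrime)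
  (hX : D.X ∉ Ideal.span {D.c (unif (H.level i))})
  (hBdens : ∀ (g : B) (N : ℕ), ∃ (a : ℕ → constRing (K := K) (R i)) (g' : B),
    g - ∑ n ∈ Finset.range N, D.c (a n) * D.X ^ n - D.X ^ N * g' ∈
      Ideal.span {D.c (unif (H.level i))})
  (Adm : Divisor K F → Prop) (hAdm : ∀ E', Adm E' → RatOver S x t (R i) E')

include hT hord hB hX hBdens hAdm in
/-- **The disc datum of a level, for the component part of the DV-completion package.** -/
noncomputable def discDatumOfDatum :
    DiscDatum.{u₁, u₂, u₃, u₄, u₅, u₆, u₂} (CompPack.ofDatum S Dd hO hw) Adm x :=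
  discDatum (CompPack.ofDatum S Dd hO hw) H hT hord i hRF hfrac hϖ j hj hj' D hcollar hB hX hBdens
    (bd.dT)
    (bdMap Dd hO hw H i hRF hfrac hϖ j hj hj' D hcollar bd)
    (by
      intro ρ
      have hmem : (⟨ρ, hRF ρ ρ.2⟩ : F₀) ∈ (Dd x.1).O₀ := (hO x.1 _).2 ((H.level i).le ρ ρ.2)
      have e : lvl (CompPack.ofDatum S Dd hO hw) H i hRF ρ =
          (Dd x.1).embO ⟨⟨ρ, hRF ρ ρ.2⟩, hmem⟩ := by
        apply Subtype.ext
        rw [(Dd x.1).coe_embO]
        rfl
      rw [e]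
      show (Dd x.1).lift _ _ _ = _
      rw [(Dd x.1).lift_embO, bdRat_of_mem Dd hO H i hRF hfrac j hj hj' D hcollar bd ρ hmem])
    bd.am
    bd.cancel
    (by
      intro y
      obtain ⟨a, y', hy'⟩ := (Dd x.1).exists_wh_pow_dvd_sub_embO y 1
      refine ⟨(a : F₀), (hO x.1 _).1 a.2, y', ?_⟩
      have e1 : (CompPack.ofDatum S Dd hO hw).ofRatAt x.1 (a : F₀) ((hO x.1 _).1 a.2) =
          (Dd x.1).embO a := by
        apply Subtype.ext
        rw [(Dd x.1).coe_embO]
        rfl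
      have e2 : (CompPack.ofDatum S Dd hO hw).unif x.1 = (Dd x.1).wh := by
        apply Subtype.ext
        rw [(Dd x.1).coe_wh, hw]
        rfl
      rw [e1, e2]
      rw [pow_one] at hy'
      exact sub_eq_iff_eq_add'.mp hy')
    Adm hAdm

/-- **The disc part of a level.** -/
noncomputable def discPartOfDatum :
    DiscPart.{u₁, u₂, u₃, u₄, u₅, u₆, u₂} (CompPack.ofDatum S Dd hO hw) Adm x :=
  (discDatumOfDatum Dd hO hw H hT hord i hRF hfrac hϖ j hj hj' D hcollar bd hB hX hBdens Adm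
    hAdm).toDiscPart

/-- the disc part of a level with the algebraic boundary ring `(B[1/X])^` -/
noncomputable def discPartOfDatumBd [IsDomain B] :
    DiscPart.{u₁, u₂, u₃, u₄, u₅, u₆, u₂} (CompPack.ofDatum S Dd hO hw) Adm x :=
  discPartOfDatum Dd hO hw H hT hord i hRF hfrac hϖ j hj hj' D hcollar
    (bdBoundary (D.c (unif (H.level i))) D.X hB hX (by
      intro h0
      have h1 := D.evB_c ⟨0, by rw [norm_zero]; exact one_pos⟩ (unif (H.level i))
      rw [h0, map_zero] at h1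
      have h2 : j (ϖ' i) = 0 := h1.symm
      exact (H.level i).unif_ne ((map_eq_zero j).mp h2)))
    hB hX hBdens Adm hAdm

end

end Fermat.Agent.FF3.ExpandDisc
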