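/-
Programme I (S33, p-new half), assembly node T3 (helper25): the two EXTRA disc clauses of helper22's
`StepB.LevelPack` (`discUnit`, `discRoot`) for the disc part of a level (`PartInst.lean`).

* `DiscPartU C Adm x n` : a `B4.DiscPart C Adm x` together with
  `unit` (DISC-UNIT: a function of the level which is a unit on the component of `x` and has divisor
  `-n E'` on the tube of `x` is, times the `n`-th power of the pole factor of `E'`, a unit of the disc
  ring) and `root` (DISC-ROOT, L11), both in the literal shape of `LevelPack.discUnit/discRoot`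
  (so that a family `x ↦ DiscPartU` chosen by cases gives the two fields without transport);
* `discPartUOfIsBranch` : the vacuous one at a branch point;
* `discDatum_unit`      : DISC-UNIT for the disc datum of a level (any boundary data);
* `discPartUOfDatum`    : the `DiscPartU` of a level, from `bd.HasRoots n`.
-/
import Mathlib
import Fermat.Agent.FF3.ExpandDisc.PartInst

set_option autoImplicit false

namespace Fermat.Agent.FF3.ExpandDisc

open AlgebraicCurve Fermat.Agent.Red Fermat.Agent.X0 Fermat.Agent.BR Fermat.Agent.BR.SS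
  Fermat.Agent.BR.S0 Fermat.Agent.FF3.B4 Fermat.Agent.FF3.DVCompl

universe u₁ u₂ u₃ u₄ u₅ u₆ w

variable {K : Type u₁} {F : Type u₂} {k : Type u₃} [Field K] [Field F] [Algebra K F] [Field k]
  {A : ValuationSubring K} {π : A →+* k} {ι : Type u₄} {Ft : ι → Type u₅}
  [∀ v, Field (Ft v)] [∀ v, Algebra k (Ft v)] {ν : Type u₆}
  {S : SemistableSetup (F := F) A π ι Ft ν} {F₀ : Subfield F} {ϖ : F₀}

/-- **A disc part with the two extra clauses of `StepB.LevelPack`** for the exponent `n`. -/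
structure DiscPartU (C : CompPack.{u₁, u₂, u₃, u₄, u₅, u₆, w} S F₀ ϖ)
    (Adm : Divisor K F → Prop) (x : Σ v, Place k (Ft v)) (n : ℕ)
    extends DiscPart.{u₁, u₂, u₃, u₄, u₅, u₆, w} C Adm x where
  /-- DISC-UNIT -/
  unit : ¬ S.IsBranch x → ∀ E' : Divisor K F, Adm E' →
    ∀ (h : F₀) (hO : (h : F) ∈ S.O x.1), S.res x.1 ⟨h, hO⟩ ≠ 0 →
    (∀ P, S.r P = x → P.ord (h : F) = -((n : ℤ) * E' P)) →
    ∃ u : Dk, IsUnit u ∧ dT u = bT (C.ofRatAt x.1 h hO) * pole E' ^ n
  /-- DISC-ROOT (L11) -/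
  root : ¬ S.IsBranch x → ∀ u : Dk, IsUnit u → ∀ z : ET, z ^ n = dT u → ∃ t : Dk, dT t = z

/-- the (vacuous) one at a branch point -/
def discPartUOfIsBranch (C : CompPack.{u₁, u₂, u₃, u₄, u₅, u₆, w} S F₀ ϖ)
    (Adm : Divisor K F → Prop) (x : Σ v, Place k (Ft v)) (n : ℕ) (hx : S.IsBranch x) :
    DiscPartU.{u₁, u₂, u₃, u₄, u₅, u₆, w} C Adm x n where
  toDiscPart := discPartOfIsBranch C Adm x hx
  unit h := absurd hx h
  root h := absurd hx h

/-- a function integral on the component with nonzero reduction has Gauss valuation `1` -/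
theorem valuation_eq_one_of_res_ne_zero (v : ι) {h : F} (hO : h ∈ S.O v)
    (hres : S.res v ⟨h, hO⟩ ≠ 0) : (S.O v).valuation h = 1 := by
  refine le_antisymm ((ValuationSubring.valuation_le_one_iff _ _).mpr hO) ?_
  by_contra hlt
  rw [not_le] at hlt
  exact hres (setup_hker S v ⟨h, hO⟩ ((ValuationSubring.mem_nonunits_iff _).mpr hlt))

section Level

variable (C : CompPack.{u₁, u₂, u₃, u₄, u₅, u₆, w} S F₀ ϖ)
  {x : Σ v, Place k (Ft v)} {T : Set (Place K F)} {t : F} {ι' : Type*}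
  {R : ι' → Subring F} {ϖ' : ι' → K}
  (H : SmoothFamily A (S.O x.1) (S.res x.1) x.2 T t R ϖ')
  (hT : ∀ P, P ∈ T ↔ S.r P = x)
  (hord : ∀ h : t ∈ S.O x.1, x.2.ord (S.res x.1 ⟨t, h⟩) = 1)
  (i : ι') (hRF : ∀ y ∈ R i, y ∈ F₀) (hfrac : ∀ h : F₀, IsFrac (R i) (h : F))
  (hϖ : ((ϖ : F₀) : F) = algebraMap K F (ϖ' i))
  {Ω : Type*} [NormedField Ω] [IsUltrametricDist Ω] (j : K →+* Ω)
  (hj : ∀ a : K, a ∈ A → ‖j a‖ ≤ 1) (hj' : ∀ a : K, A.valuation a < 1 → ‖j a‖ < 1)
  {B : Type w} [CommRing B]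
  (D : DiscTarget (constRing (K := K) (R i)) B Ω (unif (H.level i))
    (j.comp (constRing (R i)).subtype))
  (hcollar : ∀ ρ : ℝ, ρ < 1 → ∃ P : T, ρ < ‖j (evalAt P.1 t)‖)
  (hB : (Ideal.span {D.c (unif (H.level i))}).IsPrime)
  (hX : D.X ∉ Ideal.span {D.c (unif (H.level i))})
  (hBdens : ∀ (g : B) (N : ℕ), ∃ (a : ℕ → constRing (K := K) (R i)) (g' : B),
    g - ∑ n ∈ Finset.range N, D.c (a n) * D.X ^ n - D.X ^ N * g' ∈
      Ideal.span {D.c (unif (H.level i))})
  {ET : Type w} [CommRing ET] (dT : B →+* ET) (bT : C.Oh x.1 →+* ET)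
  (comm : ∀ ρ : R i, bT (lvl C H i hRF ρ) = dT (discExpand (H.level i) j hj hj' D hcollar ρ))
  (ham : ∀ g : B, (∃ z : ET, dT g = dT (D.c (unif (H.level i))) * z) →
    g ∈ Ideal.span {D.c (unif (H.level i))})
  (hcancel : ∀ z z' : ET,
    dT (D.c (unif (H.level i))) * z = dT (D.c (unif (H.level i))) * z' → z = z')
  (hdensC : ∀ y : C.Oh x.1, ∃ (h : F₀) (hO : (h : F) ∈ S.O x.1) (y' : C.Oh x.1),
    y = C.ofRatAt x.1 h hO + C.unif x.1 * y')
  (Adm : Divisor K F → Prop) (hAdm : ∀ E', Adm E' → RatOver S x t (R i) E')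

include hT hord hfrac hϖ hB hX hBdens comm ham hcancel hdensC hAdm in
/-- **DISC-UNIT** for the disc datum of a level (literal shape of `LevelPack.discUnit`). -/
theorem discDatum_unit {E' : Divisor K F} (hadm : Adm E') {f : F₀} (hfO : (f : F) ∈ S.O x.1)
    (hres : S.res x.1 ⟨f, hfO⟩ ≠ 0) (n : ℕ)
    (hdiv : ∀ P, S.r P = x → P.ord (f : F) = -((n : ℤ) * E' P)) :
    let X := discDatum C H hT hord i hRF hfrac hϖ j hj hj' D hcollar hB hX hBdens dT bT comm ham
      hcancel hdensC Adm hAdm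
    ∃ g : X.Dk, IsUnit g ∧ X.dT g = X.bT (C.ofRatAt x.1 f hfO) * X.pole E' ^ n := by
  intro X
  have hE : RatOver S x t (R i) (-(-E')) := by
    rw [neg_neg]
    exact hAdm _ hadm
  obtain ⟨z, z', hz, hzf⟩ := exists_unit_eq_mul_poleFun_pow H hT hord (D := -E') hE (hfrac f)
    (valuation_eq_one_of_res_ne_zero x.1 hfO hres) n (fun P hP => by
      rw [hdiv P ((hT P).1 hP)]
      simp)
  rw [neg_neg] at hzf
  refine X.fac E' n hfO hz ?_
  rw [hzf]
  show _ = _ * ((poleG S F₀ x t E' : F₀) : F) ^ n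
  rw [coe_poleG H i hRF (hAdm _ hadm)]

end Level

section Inst

variable (Dd : ι → Datum F₀) (hO : ∀ v (y : F₀), y ∈ (Dd v).O₀ ↔ (y : F) ∈ S.O v)
  (hw : ∀ v, (Dd v).w = ϖ)
  {x : Σ v, Place k (Ft v)} {T : Set (Place K F)} {t : F} {ι' : Type*}
  {R : ι' → Subring F} {ϖ' : ι' → K}
  (H : SmoothFamily A (S.O x.1) (S.res x.1) x.2 T t R ϖ')
  (hT : ∀ P, P ∈ T ↔ S.r P = x)
  (hord : ∀ h : t ∈ S.O x.1, x.2.ord (S.res x.1 ⟨t, h⟩) = 1)
  (i : ι') (hRF : ∀ y ∈ R i, y ∈ F₀) (hfrac : ∀ h : F₀, IsFrac (R i) (h : F))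
  (hϖ : ((ϖ : F₀) : F) = algebraMap K F (ϖ' i))
  {Ω : Type*} [NormedField Ω] [IsUltrametricDist Ω] (j : K →+* Ω)
  (hj : ∀ a : K, a ∈ A → ‖j a‖ ≤ 1) (hj' : ∀ a : K, A.valuation a < 1 → ‖j a‖ < 1)
  {B : Type u₂} [CommRing B]
  (D : DiscTarget (constRing (K := K) (R i)) B Ω (unif (H.level i))
    (j.comp (constRing (R i)).subtype))
  (hcollar : ∀ ρ : ℝ, ρ < 1 → ∃ P : T, ρ < ‖j (evalAt P.1 t)‖)
  {E : Type u₂} [CommRing E] (bd : BoundaryRing (D.c (unif (H.level i))) D.X E)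
  (hB : (Ideal.span {D.c (unif (H.level i))}).IsPrime)
  (hX : D.X ∉ Ideal.span {D.c (unif (H.level i))})
  (hBdens : ∀ (g : B) (N : ℕ), ∃ (a : ℕ → constRing (K := K) (R i)) (g' : B),
    g - ∑ n ∈ Finset.range N, D.c (a n) * D.X ^ n - D.X ^ N * g' ∈
      Ideal.span {D.c (unif (H.level i))})
  (Adm : Divisor K F → Prop) (hAdm : ∀ E', Adm E' → RatOver S x t (R i) E')

include hT hord hB hX hBdens hAdm in
/-- **The disc part of a level with the clauses DISC-UNIT and DISC-ROOT**, given the disc root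
property (L11) of the boundary ring for the exponent `n`. -/
noncomputable def discPartUOfDatum (n : ℕ) (hroots : bd.HasRoots n) :
    DiscPartU.{u₁, u₂, u₃, u₄, u₅, u₆, u₂} (CompPack.ofDatum S Dd hO hw) Adm x n where
  toDiscPart := discPartOfDatum Dd hO hw H hT hord i hRF hfrac hϖ j hj hj' D hcollar bd hB hX hBdens
    Adm hAdm
  unit := fun _ _ hE' _ hOh hres hdiv =>
    discDatum_unit (CompPack.ofDatum S Dd hO hw) H hT hord i hRF hfrac hϖ j hj hj' D hcollar hB hX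
      hBdens _ _ _ bd.am bd.cancel _ Adm hAdm hE' hOh hres n hdiv
  root := fun _ u hu z hz => hroots u hu z hz

end Inst

/-! ### the two clauses for the package assembled from its parts -/

section Pack

variable (hdeg : ∀ v (Q : Place k (Ft v)), Q.deg = 1)
  (C : CompPack.{u₁, u₂, u₃, u₄, u₅, u₆, w} S F₀ ϖ) (Adm : Divisor K F → Prop)
  (adm_smooth : ∀ {E' : Divisor K F}, Adm E' → ∀ P ∈ E'.support, S.IsSmoothPlace P)
  (N : ∀ e, NodePart C e) (n : ℕ) (DdU : ∀ x, DiscPartU.{u₁, u₂, u₃, u₄, u₅, u₆, w} C Adm x n)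

/-- the expansion package from its parts, the disc parts coming with DISC-UNIT and DISC-ROOT -/
def packOfPartsU : ExpPack.{u₁, u₂, u₃, u₄, u₅, u₆, w} S hdeg F₀ ϖ :=
  ExpPack.ofParts hdeg C Adm adm_smooth N (fun x => (DdU x).toDiscPart)

/-- `LevelPack.discUnit` (literal) for `packOfPartsU` -/
theorem packOfPartsU_discUnit (E' : Divisor K F)
    (hE' : (packOfPartsU hdeg C Adm adm_smooth N n DdU).Adm E')
    (x : Σ v, Place k (Ft v)) (hx : ¬ S.IsBranch x) (h : F₀) (hO : (h : F) ∈ S.O x.1)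
    (hres : S.res x.1 ⟨h, hO⟩ ≠ 0)
    (hdiv : ∀ P, S.r P = x → P.ord (h : F) = -((n : ℤ) * E' P)) :
    ∃ u : (packOfPartsU hdeg C Adm adm_smooth N n DdU).Dk x, IsUnit u ∧
      (packOfPartsU hdeg C Adm adm_smooth N n DdU).dT x u =
        (packOfPartsU hdeg C Adm adm_smooth N n DdU).bT x
          ((packOfPartsU hdeg C Adm adm_smooth N n DdU).ofRatAt x.1 h hO) *
        (packOfPartsU hdeg C Adm adm_smooth N n DdU).pole E' x ^ n :=
  (DdU x).unit hx E' hE' h hO hres hdiv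

/-- `LevelPack.discRoot` (literal) for `packOfPartsU` -/
theorem packOfPartsU_discRoot (x : Σ v, Place k (Ft v)) (hx : ¬ S.IsBranch x)
    (u : (packOfPartsU hdeg C Adm adm_smooth N n DdU).Dk x) (hu : IsUnit u)
    (z : (packOfPartsU hdeg C Adm adm_smooth N n DdU).ET x)
    (hz : z ^ n = (packOfPartsU hdeg C Adm adm_smooth N n DdU).dT x u) :
    ∃ t : (packOfPartsU hdeg C Adm adm_smooth N n DdU).Dk x,
      (packOfPartsU hdeg C Adm adm_smooth N n DdU).dT x t = z :=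
  (DdU x).root hx u hu z hz

end Pack

end Fermat.Agent.FF3.ExpandDisc
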