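/-
Programme I (S33, p-new half), contract D-B3 §4b (helper25): the expansion of the functions of a
finite level of a smooth chart of main (`BR/S0/SmoothDescent`: `SmoothLevel A O res Q T t R ϖ`) in
the coordinate `t` — adapter `SmoothLevel → ExpData` (helper5, `FF3/Expand/Abstract`).

* `constRing R` : the constants of the level, `constHom R : constRing R →+* R`;
* (`DiscTarget W₀ B Ω w j`, file `Target.lean` : what the target ring of the expansion provides);
* `expData` : the `ExpData` of a level, `discExpand : R →+* B` with its characterisation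
  `evB_discExpand`, `discExpand_unique`, `discExpand_const`, `discExpand_coord`,
  `discExpand_mem_pow`, `discExpand_injective`, `discExpand_mono` (functoriality in the level and in
  the target).
-/
import Mathlib
import Fermat.Agent.BR.S0.SmoothDescent
import Fermat.Agent.FF3.Expand.Abstract
import Fermat.Agent.FF3.ExpandDisc.Target

set_option autoImplicit false

namespace Fermat.Agent.FF3.ExpandDisc

open AlgebraicCurve IsLocalRing Fermat.Agent.Red Fermat.Agent.X0 Fermat.Agent.BR
  Fermat.Agent.BR.Centre Fermat.Agent.BR.S0 Fermat.Agent.FF3.Expand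

variable {K F k : Type*} [Field K] [Field F] [Algebra K F] [Field k]
  {Ft : Type*} [Field Ft] [Algebra k Ft]

/-! ### the constants of a ring of functions -/

/-- the constants of a ring of functions -/
def constRing (R : Subring F) : Subring K := R.comap (algebraMap K F)

theorem mem_constRing {R : Subring F} {c : K} :
    c ∈ constRing (K := K) R ↔ algebraMap K F c ∈ R := Iff.rfl

/-- the inclusion of the constants -/
def constHom (R : Subring F) : constRing (K := K) R →+* R :=
  (algebraMap K F).restrict (constRing R) R fun _ hx => hx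

@[simp] theorem coe_constHom (R : Subring F) (a : constRing (K := K) R) :
    ((constHom R a : R) : F) = algebraMap K F (a : K) := rfl

theorem constRing_mono {R R' : Subring F} (h : R ≤ R') :
    constRing (K := K) R ≤ constRing (K := K) R' := fun _ hc => h hc

/-! ### the data of a level -/

section Level

variable {A : ValuationSubring K} {O : ValuationSubring F} {res : O →+* Ft}
  {Q : Place k Ft} {T : Set (Place K F)} {t : F} {R : Subring F} {ϖ : K}

/-- the uniformizer of a level, as a constant -/
def unif (L : SmoothLevel A O res Q T t R ϖ) : constRing (K := K) R := ⟨ϖ, L.unif_mem⟩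

/-- the coordinate of a level -/
def coord (L : SmoothLevel A O res Q T t R ϖ) : R := ⟨t, L.t_mem⟩

@[simp] theorem coe_unif (L : SmoothLevel A O res Q T t R ϖ) : ((unif L : constRing R) : K) = ϖ :=
  rfl

@[simp] theorem coe_coord (L : SmoothLevel A O res Q T t R ϖ) : ((coord L : R) : F) = t := rfl

theorem constHom_unif (L : SmoothLevel A O res Q T t R ϖ) :
    constHom R (unif L) = ⟨algebraMap K F ϖ, L.unif_mem⟩ := rfl

/-- the constants of a level are integral -/
theorem mem_of_mem_constRing (L : SmoothLevel A O res Q T t R ϖ)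
    (hAO : ∀ c : K, A.valuation c < 1 → algebraMap K F c ∈ O.nonunits)
    {c : K} (hc : c ∈ constRing (K := K) R) : c ∈ A := by
  by_contra hcA
  have hc0 : c ≠ 0 := by
    rintro rfl
    exact hcA A.zero_mem
  have h1 : 1 < A.valuation c := by
    rw [← not_le]
    exact fun h => hcA ((A.valuation_le_one_iff c).mp h)
  have h2 : A.valuation c⁻¹ < 1 := by
    rw [map_inv₀]
    exact inv_lt_one_of_one_lt₀ h1
  have h3 := hAO c⁻¹ h2
  have h4 : O.valuation (algebraMap K F c⁻¹) < 1 := (ValuationSubring.mem_nonunits_iff O).mp h3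
  have h5 : O.valuation (algebraMap K F c) ≤ 1 := (O.valuation_le_one_iff _).mpr (L.le _ hc)
  have h6 : O.valuation (algebraMap K F c⁻¹) * O.valuation (algebraMap K F c) < 1 :=
    mul_lt_one_of_nonneg_of_lt_one_left zero_le h4 h5
  rw [← map_mul, ← map_mul, inv_mul_cancel₀ hc0, map_one, map_one] at h6
  exact lt_irrefl _ h6

/-- `R = constants + (ϖ, t)` -/
theorem exists_const_sub_mem (L : SmoothLevel A O res Q T t R ϖ) (y : R) :
    ∃ a : constRing (K := K) R, y - constHom R a ∈
      Ideal.span (insert (constHom R (unif L)) (Set.range fun _ : Unit => coord L)) := by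
  obtain ⟨a, h, ha⟩ := L.residue y
  refine ⟨⟨a, h⟩, ?_⟩
  have h1 := L.nonunit_mem _ ha
  have e : (insert (constHom R (unif L)) (Set.range fun _ : Unit => coord L) : Set R) =
      {(⟨algebraMap K F ϖ, L.unif_mem⟩ : R), ⟨t, L.t_mem⟩} := by
    rw [Set.range_const]
    rfl
  rw [e]
  exact h1

variable {Ω : Type*} [NormedField Ω]

/-- the evaluation at a place of the tube, with values in `Ω` -/
noncomputable def ev (L : SmoothLevel A O res Q T t R ϖ) (j : K →+* Ω) (P : T) : R →+* Ω :=
  j.comp (A.subtype.comp (evHom A R P.1 (L.integralAt P.2)))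

theorem ev_apply (L : SmoothLevel A O res Q T t R ϖ) (j : K →+* Ω) (P : T) (y : R) :
    ev L j P y = j (evalAt P.1 (y : F)) := rfl

theorem ev_constHom (L : SmoothLevel A O res Q T t R ϖ) (j : K →+* Ω) (P : T)
    (a : constRing (K := K) R) : ev L j P (constHom R a) = j a := by
  rw [ev_apply, coe_constHom, evalAt_algebraMap]

theorem ev_coord (L : SmoothLevel A O res Q T t R ϖ) (j : K →+* Ω) (P : T) :
    ev L j P (coord L) = j (evalAt P.1 t) := rfl

theorem norm_ev_le (L : SmoothLevel A O res Q T t R ϖ) (j : K →+* Ω)
    (hj : ∀ x : K, x ∈ A → ‖j x‖ ≤ 1) (P : T) (y : R) : ‖ev L j P y‖ ≤ 1 :=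
  hj _ ((L.integralAt P.2).evalAt_mem y.2)

theorem norm_coord_lt (L : SmoothLevel A O res Q T t R ϖ) (j : K →+* Ω)
    (hj' : ∀ x : K, A.valuation x < 1 → ‖j x‖ < 1) (P : T) : ‖j (evalAt P.1 t)‖ < 1 :=
  hj' _ (L.valuation_evalAt_lt_one P.2)

/-- the point of the unit disc of `Ω` defined by a place of the tube -/
noncomputable def pt (L : SmoothLevel A O res Q T t R ϖ) (j : K →+* Ω)
    (hj' : ∀ x : K, A.valuation x < 1 → ‖j x‖ < 1) (P : T) : {z : Ω // ‖z‖ < 1} :=
  ⟨j (evalAt P.1 t), norm_coord_lt L j hj' P⟩

/-- **The expansion data of a level.** -/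
noncomputable def expData {B : Type*} [CommRing B] (L : SmoothLevel A O res Q T t R ϖ)
    (j : K →+* Ω) (hj : ∀ x : K, x ∈ A → ‖j x‖ ≤ 1)
    (hj' : ∀ x : K, A.valuation x < 1 → ‖j x‖ < 1)
    (D : DiscTarget (constRing (K := K) R) B Ω (unif L) (j.comp (constRing R).subtype))
    (hcollar : ∀ ρ : ℝ, ρ < 1 → ∃ P : T, ρ < ‖j (evalAt P.1 t)‖) :
    ExpData (constRing (K := K) R) R B Ω Unit T where
  ι := constHom R
  c := D.c
  ϖ := unif L
  x := fun _ => coord L
  X := fun _ => D.X
  ev := ev L j
  evB := fun P => D.evB (pt L j hj' P)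
  evB_c := fun P a => by rw [D.evB_c, ev_constHom]; rfl
  evB_X := fun P _ => by rw [D.evB_X, ev_coord]; rfl
  ev_le := norm_ev_le L j hj
  evB_le := fun P b => D.evB_le _ b
  rad := fun P => max ‖j ϖ‖ ‖j (evalAt P.1 t)‖
  rad_lt := fun P => max_lt (hj' _ L.unif_lt) (norm_coord_lt L j hj' P)
  ev_unif_le := fun P => by
    rw [ev_constHom]
    exact le_max_left _ _
  ev_x_le := fun P _ => by
    rw [ev_coord]
    exact le_max_right _ _
  hres := exists_const_sub_mem L
  complete := by
    have e : (insert (D.c (unif L)) (Set.range fun _ : Unit => D.X) : Set B) =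
        {D.c (unif L), D.X} := by
      rw [Set.range_const]
    rw [e]
    intro f hf
    obtain ⟨l, hl⟩ := D.complete f hf
    exact ⟨l, fun P => hl _⟩
  hsep := by
    intro b hb
    by_contra hb0
    obtain ⟨ρ, hρ, hne⟩ := D.ident b hb0
    obtain ⟨P, hP⟩ := hcollar ρ hρ
    exact hne (pt L j hj' P) hP (hb P)

/-! ### the expansion -/

section Expand

variable {B : Type*} [CommRing B] (L : SmoothLevel A O res Q T t R ϖ)
  (j : K →+* Ω) (hj : ∀ x : K, x ∈ A → ‖j x‖ ≤ 1)
  (hj' : ∀ x : K, A.valuation x < 1 → ‖j x‖ < 1)
  (D : DiscTarget (constRing (K := K) R) B Ω (unif L) (j.comp (constRing R).subtype))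
  (hcollar : ∀ ρ : ℝ, ρ < 1 → ∃ P : T, ρ < ‖j (evalAt P.1 t)‖)

/-- **The expansion of the functions of a level in the coordinate `t`.** -/
noncomputable def discExpand [IsUltrametricDist Ω] : R →+* B :=
  (expData L j hj hj' D hcollar).expand

variable [IsUltrametricDist Ω]

/-- the expansion has the same values as the function at the places of the tube -/
theorem evB_discExpand (P : T) (y : R) :
    D.evB (pt L j hj' P) (discExpand L j hj hj' D hcollar y) = j (evalAt P.1 (y : F)) :=
  (expData L j hj hj' D hcollar).evB_expand P y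

/-- the expansion is characterised by its values -/
theorem discExpand_eq {b : B} {y : R}
    (h : ∀ P : T, D.evB (pt L j hj' P) b = j (evalAt P.1 (y : F))) :
    discExpand L j hj hj' D hcollar y = b :=
  (expData L j hj hj' D hcollar).expand_eq h

theorem discExpand_unique (e : R →+* B)
    (he : ∀ (P : T) (y : R), D.evB (pt L j hj' P) (e y) = j (evalAt P.1 (y : F))) :
    e = discExpand L j hj hj' D hcollar :=
  (expData L j hj hj' D hcollar).expand_unique e he

@[simp] theorem discExpand_const (a : constRing (K := K) R) :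
    discExpand L j hj hj' D hcollar (constHom R a) = D.c a :=
  (expData L j hj hj' D hcollar).expand_const a

@[simp] theorem discExpand_coord : discExpand L j hj hj' D hcollar (coord L) = D.X :=
  (expData L j hj hj' D hcollar).expand_coord ()

/-- the expansion maps `(ϖ, t) ^ n` into `(ϖ, X) ^ n` -/
theorem discExpand_mem_pow {n : ℕ} {y : R}
    (hy : y ∈ Ideal.span {constHom R (unif L), coord L} ^ n) :
    discExpand L j hj hj' D hcollar y ∈ Ideal.span {D.c (unif L), D.X} ^ n := by
  have e1 : (expData L j hj hj' D hcollar).mR = Ideal.span {constHom R (unif L), coord L} := by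
    unfold ExpData.mR
    show Ideal.span (insert (constHom R (unif L)) (Set.range fun _ : Unit => coord L)) = _
    rw [Set.range_const]
  have e2 : (expData L j hj hj' D hcollar).mB = Ideal.span {D.c (unif L), D.X} := by
    unfold ExpData.mB
    show Ideal.span (insert (D.c (unif L)) (Set.range fun _ : Unit => D.X)) = _
    rw [Set.range_const]
  rw [← e2]
  exact (expData L j hj hj' D hcollar).expand_mem_pow (by rw [e1]; exact hy)

/-- the expansion is injective as soon as the places of the tube separate the functions of the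
level (always the case: `eq_zero_of_forall_evalAt_eq_zero` below) -/
theorem discExpand_injective (hjinj : Function.Injective j)
    (hsepR : ∀ y : R, (∀ P : T, evalAt P.1 (y : F) = 0) → y = 0) :
    Function.Injective (discExpand L j hj hj' D hcollar) := by
  refine (expData L j hj hj' D hcollar).expand_injective fun y hy => hsepR y fun P => ?_
  have h1 : j (evalAt P.1 (y : F)) = 0 := hy P
  exact (map_eq_zero_iff j hjinj).mp h1

end Expand

end Level

end Fermat.Agent.FF3.ExpandDisc
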