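/-
Programme I (S33, p-new half), contract D-B3 §4b / assembly node T3 (helper25): the POLE FUNCTIONS of
the disc part, in divisor form.

For a smooth family of levels `H : SmoothFamily A (S.O v) (S.res v) Q T t R ϖ'` at a closed point
`x = ⟨v, Q⟩` of a semistable setup `S` (`T` the tube of `x`) and a divisor `E'`:

  `poleFun S x t E' = ∏_{P ∈ supp E', P ↦ x} (t - t(P)) ^ E'(P)`.

* `valuation_poleFun` : it is a unit of the component;
* `ord_poleFun` : its order at a place `P` of the tube is `E'(P)`;
* `poleFun_mem_level`, `isFrac_poleFun` : it is a quotient of functions of a level over which the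
  points of `E'` in the tube are rational;
* `exists_poleFun_eq_mul` (`G_mono`), `mul_poleFun_mem` (`G_rat`), `resF_poleFun_ne_zero` (`G_res`),
  `ord_resF_poleFun` (`G_ord`) : the four clauses of `DiscDatum` (`Part.lean`).
-/
import Mathlib
import Fermat.Agent.BR.SS.Push
import Fermat.Agent.BR.S0.SmoothFields
import Fermat.Agent.FF3.ExpandDisc.Pole

set_option autoImplicit false

namespace Fermat.Agent.FF3.ExpandDisc

open AlgebraicCurve Fermat.Agent.Red Fermat.Agent.X0 Fermat.Agent.BR Fermat.Agent.BR.SS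
  Fermat.Agent.BR.S0

variable {K F k : Type*} [Field K] [Field F] [Algebra K F] [Field k]
  {A : ValuationSubring K} {π : A →+* k} {ι : Type*} {Ft : ι → Type*}
  [∀ v, Field (Ft v)] [∀ v, Algebra k (Ft v)] {ν : Type*}
  (S : SemistableSetup (F := F) A π ι Ft ν)

/-! ### the hypotheses `hAO`, `hres`, `hker` of the level files, at a semistable setup -/

theorem setup_hAO (v : ι) (c : K) (hc : A.valuation c < 1) :
    algebraMap K F c ∈ (S.O v).nonunits := by
  rw [ValuationSubring.mem_nonunits_iff_or]
  rcases eq_or_ne c 0 with rfl | hc0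
  · left
    exact map_zero _
  right
  rw [← map_inv₀, S.algebraMap_mem_iff]
  intro h
  have h1 : A.valuation c⁻¹ ≤ 1 := (A.valuation_le_one_iff _).mpr h
  rw [map_inv₀] at h1
  have h2 : A.valuation c ≠ 0 := (Valuation.ne_zero_iff _).mpr hc0
  have h3 : 1 ≤ A.valuation c := by
    have := (inv_le_one₀ (zero_lt_iff.mpr h2)).mp h1
    exact this
  exact absurd hc (not_lt.mpr h3)

theorem setup_hres (v : ι) (a : K) (ha : a ∈ A) (h : algebraMap K F a ∈ S.O v) :
    S.res v ⟨algebraMap K F a, h⟩ = algebraMap k (Ft v) (π ⟨a, ha⟩) :=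
  S.res_algebraMap v a ha h

theorem setup_hker (v : ι) (y : S.O v) (hy : (y : F) ∈ (S.O v).nonunits) : S.res v y = 0 := by
  have h1 := (S.resF_eq_zero_iff y.2).mpr hy
  rwa [S.resF_of_mem y.2] at h1

/-! ### residues of products of units -/

theorem resF_zpow_of_valuation_eq_one (v : ι) {y : F} (hy : (S.O v).valuation y = 1) (n : ℤ) :
    S.resF v (y ^ n) = S.resF v y ^ n := by
  have hyO : y ∈ S.O v := (ValuationSubring.valuation_le_one_iff _ _).mp hy.le
  have hy0 : y ≠ 0 := by
    rintro rfl
    rw [map_zero] at hy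
    exact zero_ne_one hy
  have hyi : y⁻¹ ∈ S.O v := by
    refine (ValuationSubring.valuation_le_one_iff _ _).mp ?_
    rw [map_inv₀, hy, inv_one]
  have hne : S.resF v y ≠ 0 := (S.resF_ne_zero_iff hyO).mpr ⟨hy0, hyi⟩
  cases n with
  | ofNat n =>
    rw [Int.ofNat_eq_natCast, zpow_natCast, zpow_natCast, S.resF_pow hyO]
  | negSucc n =>
    rw [zpow_negSucc, zpow_negSucc, S.resF_inv, S.resF_pow hyO]
    rw [S.resF_pow hyO]
    exact pow_ne_zero _ hne

theorem valuation_zpow_eq_one (v : ι) {y : F} (hy : (S.O v).valuation y = 1) (n : ℤ) :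
    (S.O v).valuation (y ^ n) = 1 := by
  rw [map_zpow₀, hy, one_zpow]

theorem resF_prod_zpow (v : ι) {σ : Type*} (s : Finset σ) (f : σ → F) (n : σ → ℤ)
    (hf : ∀ i ∈ s, (S.O v).valuation (f i) = 1) :
    S.resF v (∏ i ∈ s, f i ^ n i) = ∏ i ∈ s, S.resF v (f i) ^ n i := by
  classical
  induction s using Finset.induction_on with
  | empty => simp
  | insert a s ha ih =>
    have h1 : (S.O v).valuation (f a ^ n a) = 1 :=
      valuation_zpow_eq_one S v (hf a (Finset.mem_insert_self a s)) _
    have h2 : (S.O v).valuation (∏ i ∈ s, f i ^ n i) = 1 := by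
      rw [map_prod]
      exact Finset.prod_eq_one fun i hi =>
        valuation_zpow_eq_one S v (hf i (Finset.mem_insert_of_mem hi)) _
    rw [Finset.prod_insert ha, Finset.prod_insert ha,
      S.resF_mul ((ValuationSubring.valuation_le_one_iff _ _).mp h1.le)
        ((ValuationSubring.valuation_le_one_iff _ _).mp h2.le),
      resF_zpow_of_valuation_eq_one S v (hf a (Finset.mem_insert_self a s)),
      ih fun i hi => hf i (Finset.mem_insert_of_mem hi)]

/-! ### the pole function of a divisor -/

open Classical in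
/-- the pole function `∏_{P ∈ supp E', P ↦ x} (t - t(P)) ^ E'(P)` -/
noncomputable def poleFun (x : Σ v, Place k (Ft v)) (t : F) (E' : Divisor K F) : F :=
  ∏ P ∈ E'.support.filter (fun P => S.r P = x),
    (t - algebraMap K F (evalAt P t)) ^ (E' P)

section Family

variable {S} {x : Σ v, Place k (Ft v)} {T : Set (Place K F)} {t : F} {ι' : Type*}
  {R : ι' → Subring F} {ϖ' : ι' → K}
  (H : SmoothFamily A (S.O x.1) (S.res x.1) x.2 T t R ϖ')
  (hT : ∀ P, P ∈ T ↔ S.r P = x)
  (hord : ∀ h : t ∈ S.O x.1, x.2.ord (S.res x.1 ⟨t, h⟩) = 1)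

include H in
theorem t_mem_O : t ∈ S.O x.1 := by
  obtain ⟨i⟩ := H.nonempty
  exact (H.level i).le t (H.level i).t_mem

include H hord in
theorem t_notMem_nonunits : t ∉ (S.O x.1).nonunits := by
  intro h
  have h1 := setup_hker S x.1 ⟨t, t_mem_O H⟩ h
  have h2 := hord (t_mem_O H)
  rw [h1, Place.ord_zero] at h2
  exact zero_ne_one h2

include H in
theorem valuation_evalAt_lt {P : Place K F} (hP : P ∈ T) : A.valuation (evalAt P t) < 1 := by
  obtain ⟨i⟩ := H.nonempty
  exact (H.level i).valuation_evalAt_lt_one hP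

include H hord in
theorem valuation_factor {P : Place K F} (hP : P ∈ T) :
    (S.O x.1).valuation (t - algebraMap K F (evalAt P t)) = 1 :=
  valuation_coord_sub H (setup_hAO S x.1) (t_notMem_nonunits H hord) (valuation_evalAt_lt H hP)

include H hord in
theorem factor_ne_zero {P : Place K F} (hP : P ∈ T) : t - algebraMap K F (evalAt P t) ≠ 0 := by
  intro h0
  have := valuation_factor H hord hP
  rw [h0, map_zero] at this
  exact zero_ne_one this

include H hT hord in
/-- the pole function is a unit of the component -/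
theorem valuation_poleFun (E' : Divisor K F) :
    (S.O x.1).valuation (poleFun S x t E') = 1 := by
  classical
  unfold poleFun
  rw [map_prod]
  refine Finset.prod_eq_one fun P hP => ?_
  rw [Finset.mem_filter] at hP
  rw [map_zpow₀, valuation_factor H hord ((hT P).mpr hP.2), one_zpow]

include H hT hord in
theorem poleFun_mem_O (E' : Divisor K F) : poleFun S x t E' ∈ S.O x.1 :=
  (ValuationSubring.valuation_le_one_iff _ _).mp (valuation_poleFun H hT hord E').le

include H hT hord in
theorem poleFun_ne_zero (E' : Divisor K F) : poleFun S x t E' ≠ 0 := by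
  intro h0
  have := valuation_poleFun H hT hord E'
  rw [h0, map_zero] at this
  exact zero_ne_one this

include H hT hord in
/-- the order of the pole function at a place of the tube -/
theorem ord_poleFun (E' : Divisor K F) {P : Place K F} (hP : P ∈ T) :
    P.ord (poleFun S x t E') = E' P := by
  classical
  unfold poleFun
  rw [ord_prod_zpow P _ _ _ fun P' hP' =>
    factor_ne_zero H hord ((hT P').mpr (Finset.mem_filter.mp hP').2)]
  have hL := H.nonempty
  obtain ⟨i⟩ := hL
  have h1 : ∀ P' ∈ E'.support.filter (fun P => S.r P = x),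
      E' P' * P.ord (t - algebraMap K F (evalAt P' t)) = if P' = P then E' P else 0 := by
    intro P' hP'
    have hP'T : P' ∈ T := (hT P').mpr (Finset.mem_filter.mp hP').2
    rw [ord_coord_sub H (setup_hAO S x.1) hP ((H.level i).isValueAt_evalAt hP)]
    by_cases hPP : P' = P
    · subst hPP
      rw [if_pos rfl, if_pos rfl, mul_one]
    · rw [if_neg hPP, if_neg, mul_zero]
      intro hc
      apply hPP
      refine H.inj (setup_hAO S x.1) hP'T hP ((H.level i).isValueAt_evalAt hP'T) ?_
      rw [hc]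
      exact (H.level i).isValueAt_evalAt hP
  rw [Finset.sum_congr rfl h1, Finset.sum_ite_eq']
  split_ifs with h
  · rfl
  · have : P ∉ E'.support := fun h' => h (Finset.mem_filter.mpr ⟨h', (hT P).mp hP⟩)
    exact (Finsupp.notMem_support_iff.mp this).symm

end Family

/-! ### the four clauses -/

section Clauses

variable {S} {x : Σ v, Place k (Ft v)} {T : Set (Place K F)} {t : F} {ι' : Type*}
  {R : ι' → Subring F} {ϖ' : ι' → K}
  (H : SmoothFamily A (S.O x.1) (S.res x.1) x.2 T t R ϖ')
  (hT : ∀ P, P ∈ T ↔ S.r P = x)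
  (hord : ∀ h : t ∈ S.O x.1, x.2.ord (S.res x.1 ⟨t, h⟩) = 1)

/-- the points of the divisor `E'` in the tube of `x` are rational over the level `i` -/
def RatOver (S : SemistableSetup (F := F) A π ι Ft ν) (x : Σ v, Place k (Ft v)) (t : F)
    (Ri : Subring F) (E' : Divisor K F) : Prop :=
  ∀ P ∈ E'.support, S.r P = x → algebraMap K F (evalAt P t) ∈ Ri

include H in
theorem factor_mem {i : ι'} {E' : Divisor K F} (hE : RatOver S x t (R i) E') {P : Place K F}
    (hP : P ∈ E'.support) (hPx : S.r P = x) : t - algebraMap K F (evalAt P t) ∈ R i :=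
  (R i).sub_mem (H.level i).t_mem (hE P hP hPx)

include H in
/-- the pole function is a quotient of functions of the level -/
theorem isFrac_poleFun {i : ι'} {E' : Divisor K F} (hE : RatOver S x t (R i) E') :
    IsFrac (R i) (poleFun S x t E') := by
  classical
  unfold poleFun
  refine IsFrac.prod _ _ fun P hP => IsFrac.zpow (IsFrac.of_mem ?_) _
  rw [Finset.mem_filter] at hP
  exact factor_mem H hE hP.1 hP.2

include H hT hord in
/-- **`G_mono`** -/
theorem exists_poleFun_eq_mul {i : ι'} {E' E'' : Divisor K F} (hE' : RatOver S x t (R i) E')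
    (hE'' : RatOver S x t (R i) E'') (hle : E' ≤ E'') :
    ∃ ρ : R i, poleFun S x t E'' = poleFun S x t E' * (ρ : F) := by
  classical
  set s : Finset (Place K F) := (E'.support ∪ E''.support).filter (fun P => S.r P = x) with hs
  have hsub' : E'.support.filter (fun P => S.r P = x) ⊆ s := by
    intro P hP
    rw [Finset.mem_filter] at hP
    exact Finset.mem_filter.mpr ⟨Finset.mem_union_left _ hP.1, hP.2⟩
  have hsub'' : E''.support.filter (fun P => S.r P = x) ⊆ s := by
    intro P hP
    rw [Finset.mem_filter] at hP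
    exact Finset.mem_filter.mpr ⟨Finset.mem_union_right _ hP.1, hP.2⟩
  have e' : poleFun S x t E' = ∏ P ∈ s, (t - algebraMap K F (evalAt P t)) ^ (E' P) := by
    unfold poleFun
    refine Finset.prod_subset hsub' fun P hP hP' => ?_
    have : P ∉ E'.support := fun h =>
      hP' (Finset.mem_filter.mpr ⟨h, (Finset.mem_filter.mp hP).2⟩)
    rw [Finsupp.notMem_support_iff.mp this, zpow_zero]
  have e'' : poleFun S x t E'' = ∏ P ∈ s, (t - algebraMap K F (evalAt P t)) ^ (E'' P) := by
    unfold poleFun
    refine Finset.prod_subset hsub'' fun P hP hP' => ?_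
    have : P ∉ E''.support := fun h =>
      hP' (Finset.mem_filter.mpr ⟨h, (Finset.mem_filter.mp hP).2⟩)
    rw [Finsupp.notMem_support_iff.mp this, zpow_zero]
  have hmem : ∀ P ∈ s, t - algebraMap K F (evalAt P t) ∈ R i := by
    intro P hP
    rw [hs, Finset.mem_filter, Finset.mem_union] at hP
    rcases hP.1 with h | h
    · exact factor_mem H hE' h hP.2
    · exact factor_mem H hE'' h hP.2
  refine ⟨⟨∏ P ∈ s, (t - algebraMap K F (evalAt P t)) ^ (E'' P - E' P).toNat,
    Subring.prod_mem _ fun P hP => Subring.pow_mem _ (hmem P hP) _⟩, ?_⟩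
  show _ = _ * ∏ P ∈ s, (t - algebraMap K F (evalAt P t)) ^ (E'' P - E' P).toNat
  rw [e', e'', ← Finset.prod_mul_distrib]
  refine Finset.prod_congr rfl fun P hP => ?_
  have hne : t - algebraMap K F (evalAt P t) ≠ 0 :=
    factor_ne_zero H hord ((hT P).mpr (Finset.mem_filter.mp hP).2)
  have h0 : 0 ≤ E'' P - E' P := sub_nonneg.mpr (hle P)
  rw [← zpow_natCast, Int.toNat_of_nonneg h0, ← zpow_add₀ hne]
  congr 1
  ring

include H hT hord in
/-- **`G_rat`** -/
theorem mul_poleFun_mem {i : ι'} {E' : Divisor K F} (hE' : RatOver S x t (R i) E') {h : F}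
    (hfrac : IsFrac (R i) h) (hO : h ∈ S.O x.1) (hL : h ∈ riemannRochSpace E') :
    h * poleFun S x t E' ∈ R i := by
  obtain ⟨a, b, hb, hab⟩ := hfrac.mul (isFrac_poleFun H hE')
  refine (H.level i).mem_of_regular (setup_hAO S x.1) hb hab
    ((S.O x.1).mul_mem _ _ hO (poleFun_mem_O H hT hord E')) fun P hP => ?_
  rcases eq_or_ne h 0 with rfl | hh0
  · rw [zero_mul, Place.ord_zero]
  rw [Place.ord_mul _ hh0 (poleFun_ne_zero H hT hord E'), ord_poleFun H hT hord E' hP]
  rcases mem_riemannRochSpace_iff.mp hL P with h1 | h1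
  · exact absurd h1 hh0
  · linarith

include H hT hord in
/-- **`G_res`** -/
theorem resF_poleFun_ne_zero (E' : Divisor K F) : S.resF x.1 (poleFun S x t E') ≠ 0 := by
  rw [S.resF_ne_zero_iff (poleFun_mem_O H hT hord E')]
  refine ⟨poleFun_ne_zero H hT hord E', (ValuationSubring.valuation_le_one_iff _ _).mp ?_⟩
  rw [map_inv₀, valuation_poleFun H hT hord E', inv_one]

include H hT hord in
/-- **`G_ord`** -/
theorem ord_resF_poleFun (E' : Divisor K F) :
    x.2.ord (S.resF x.1 (poleFun S x t E')) = S.push E' x.1 x.2 := by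
  classical
  have hfac : ∀ P ∈ E'.support.filter (fun P => S.r P = x),
      S.resF x.1 (t - algebraMap K F (evalAt P t)) = S.resF x.1 t := by
    intro P hP
    have hPT : P ∈ T := (hT P).mpr (Finset.mem_filter.mp hP).2
    have h1 : algebraMap K F (evalAt P t) ∈ (S.O x.1).nonunits :=
      setup_hAO S x.1 _ (valuation_evalAt_lt H hPT)
    have h2 : algebraMap K F (evalAt P t) ∈ S.O x.1 := (S.O x.1).nonunits_subset h1
    rw [S.resF_sub (t_mem_O H) h2, (S.resF_eq_zero_iff h2).mpr h1, sub_zero]
  have hone : x.2.ord (S.resF x.1 t) = 1 := by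
    rw [S.resF_of_mem (t_mem_O H)]
    exact hord _
  have hne : S.resF x.1 t ≠ 0 := by
    intro h0
    rw [h0, Place.ord_zero] at hone
    exact zero_ne_one hone
  unfold poleFun
  rw [resF_prod_zpow S x.1 _ _ _ fun P hP =>
    valuation_factor H hord ((hT P).mpr (Finset.mem_filter.mp hP).2),
    Finset.prod_congr rfl fun P hP => by rw [hfac P hP],
    ord_prod_zpow x.2 _ _ _ fun _ _ => hne, S.push_apply_eq_sum, Finset.sum_filter]
  refine Finset.sum_congr rfl fun P _ => ?_
  rw [hone, mul_one]
  congr 1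

include H hT hord in
/-- **`hfac`** : a unit `f` of the component whose divisor on the tube is `n • D`, times the `n`-th
power of the pole function of `-D`, is a unit of the level -/
theorem exists_unit_eq_mul_poleFun_pow {i : ι'} {D : Divisor K F}
    (hE : RatOver S x t (R i) (-D)) {f : F} (hfrac : IsFrac (R i) f)
    (hf : (S.O x.1).valuation f = 1) (n : ℕ) (hdiv : ∀ P ∈ T, P.ord f = n * D P) :
    ∃ z z' : R i, z * z' = 1 ∧ (z : F) = f * poleFun S x t (-D) ^ n := by
  have hf0 : f ≠ 0 := by
    rintro rfl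
    rw [map_zero] at hf
    exact zero_ne_one hf
  have hG0 := poleFun_ne_zero H hT hord (-D)
  set y : F := f * poleFun S x t (-D) ^ n with hy
  have hy0 : y ≠ 0 := mul_ne_zero hf0 (pow_ne_zero _ hG0)
  have hyv : (S.O x.1).valuation y = 1 := by
    rw [hy, map_mul, map_pow, hf, valuation_poleFun H hT hord, one_pow, one_mul]
  have hyfrac : IsFrac (R i) y := hfrac.mul ((isFrac_poleFun H hE).pow n)
  have hyord : ∀ P ∈ T, P.ord y = 0 := by
    intro P hP
    rw [hy, Place.ord_mul _ hf0 (pow_ne_zero _ hG0), ← zpow_natCast, Place.ord_zpow,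
      ord_poleFun H hT hord (-D) hP, hdiv P hP]
    simp
  have hyO : y ∈ S.O x.1 := (ValuationSubring.valuation_le_one_iff _ _).mp hyv.le
  have hyiO : y⁻¹ ∈ S.O x.1 := by
    refine (ValuationSubring.valuation_le_one_iff _ _).mp ?_
    rw [map_inv₀, hyv, inv_one]
  obtain ⟨a, b, hb, hab⟩ := hyfrac
  obtain ⟨a', b', hb', hab'⟩ := (IsFrac.inv ⟨a, b, hb, hab⟩ : IsFrac (R i) y⁻¹)
  have h1 : y ∈ R i := (H.level i).mem_of_regular (setup_hAO S x.1) hb hab hyO fun P hP => by
    rw [hyord P hP]
  have h2 : y⁻¹ ∈ R i := (H.level i).mem_of_regular (setup_hAO S x.1) hb' hab' hyiO fun P hP => by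
    rw [Place.ord_inv, hyord P hP, neg_zero]
  exact ⟨⟨y, h1⟩, ⟨y⁻¹, h2⟩, Subtype.ext (mul_inv_cancel₀ hy0), rfl⟩

end Clauses

end Fermat.Agent.FF3.ExpandDisc
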